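/-
S45lib / Chain / Setup  (helper7)  --  INTERFACE of the function level chain of (C45), all exponents

Generalisation of helper4's `S36lib/J/Setup.lean` (three components over two) to helper6's
multi-component thick data (`S45lib/MThick/Datum.lean`): over a discretely valued base `(K, R, π)`

* `F / K` : the function field of the TOP level `M q^k` with its thick datum `D : MDatum R F ι Fk`
  (components `Σ e_i Z_i`, `i : ι`), a Kummer system `KS` and the three exports of (G);
* `G / K` : the function field of the LOW level `M q^(k-1)` with its datum `D' : MDatum R G ι' Gk` — the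
  SAME structure one level down — of which only the places, the base component (`e' = 1`), the
  multipoints, a set `𝓛'` of functions regular off the cusps and (GLUE) on `𝓛'` are used;
* the two norm maps `Nα Nβ : F →* G`, each with a PATTERN (`NormCtxK`): the map `a : ι → ι'` on
  components, the residue maps `φ i (a i) : Fk i →* Gk (a i)`, the exponents `t i` (values at the
  multipoints) and `f i` (orders), the map `cN` on multipoints;
* `IsGenericAt` : the component `i` is ALONE in its fibre of `a` and `φ i (a i)` has a retraction up to an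
  `r`-th power, `r` prime to `n` (Frobenius type or degree one);
* the two COMBINATORIAL inputs of the chain, to be checked on the explicit tables
  (`Chain/Table.lean`): `comb_ord` (orders) and `comb_tor` (toric part).

Main theorem (`Chain/Main.lean`): a Kummer function `u` whose two norms are trivial Kummer functions
has `u ^ Q ∈ Kˣ · (Fˣ)ⁿ`.
-/
import Mathlib
import Fermat.Agent.S45lib.MThick.Basic
import Fermat.Agent.S36lib.J.Setup

set_option autoImplicit false
set_option linter.unusedSectionVars false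
set_option linter.unusedVariables false

noncomputable section

namespace Fermat.Agent.S45lib.Chain

open AlgebraicCurve Module
open Fermat.Agent.S18lib Fermat.Agent.S36lib.Norm
open Fermat.Agent.S36lib.Thick (RamGaussDatum)
open Fermat.Agent.S36lib.J (IsConstPow BaseDVR PreservesConst ramPlace)
open Fermat.Agent.LSb (HasValueAt)
open Fermat.Agent.S45lib.MThick

variable {K : Type*} [Field K] {R : ValuationSubring K}
variable {F : Type*} [Field F] [Algebra K F]
variable {ι : Type*} [Fintype ι] [DecidableEq ι] {Fk : ι → Type*} [∀ i, Field (Fk i)]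
variable [∀ i, Algebra (IsLocalRing.ResidueField R) (Fk i)]
variable {G : Type*} [Field G] [Algebra K G]
variable {ι' : Type*} [Fintype ι'] [DecidableEq ι'] {Gk : ι' → Type*} [∀ i, Field (Gk i)]
variable [∀ i, Algebra (IsLocalRing.ResidueField R) (Gk i)]

local notation "k" => IsLocalRing.ResidueField R

/-- A Kummer system on a multi-component thick datum: the predicate "`n ∣ div z`" with its chart
families (copy of `S36lib.J.KummerSystem`). -/
structure KummerSystemK (D : MDatum R F ι Fk) (g n : ℕ) where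
  /-- `z ≠ 0` and `n ∣ div z` -/
  IsKum : F → Prop
  /-- `𝓔 z a b = L(div(z)/n + a P₁ + b P₂)` -/
  𝓔 : F → ℕ → ℕ → Submodule K F
  /-- the Kummer family of a Kummer function -/
  fam : ∀ z, IsKum z → KummerFamily D g n z
  fam_𝓔 : ∀ z (hz : IsKum z), (fam z hz).𝓔 = 𝓔 z
  ne_zero : ∀ z, IsKum z → z ≠ 0
  mul : ∀ z z', IsKum z → IsKum z' → IsKum (z * z')
  inv : ∀ z, IsKum z → IsKum z⁻¹
  const : ∀ c : K, c ≠ 0 → IsKum (algebraMap K F c)
  npow : ∀ w : F, w ≠ 0 → IsKum (w ^ n)
  /-- `L(E + A) · L(E' + A') ⊆ L(E + E' + A + A')` -/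
  𝓔_mul : ∀ z z', IsKum z → IsKum z' → ∀ (a b a' b' : ℕ) (h h' : F),
    h ∈ 𝓔 z a b → h' ∈ 𝓔 z' a' b' → h * h' ∈ 𝓔 (z * z') (a + a') (b + b')

/-- The hypotheses on ONE norm map `N : F →* G` with pattern `(a, φ, t, f, cN)`:
`red_{i'} (N u) = ∏_{a i = i'} φ i i' (red_i u)`; the multipoint `c` lies over `cN c`; values at
`x i c` are raised to the power `t i`; orders at `i` are multiplied by `f i`.
(`φ i i'` is only used for `i' = a i`.) -/
structure NormCtxK (D : MDatum R F ι Fk) (D' : MDatum R G ι' Gk) (𝓛' : Set G) (N : F →* G)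
    (a : ι → ι') (φ : ∀ (i : ι) (i' : ι'), Fk i →* Gk i') (t f : ι → ℕ)
    (cN : Fin D.s → Fin D'.s) : Prop where
  /-- constants go to constants -/
  const : ∀ c : K, ∃ c' : K, N (algebraMap K F c) = algebraMap K G c'
  mem : ∀ u : F, u ∈ D.O → N u ∈ D'.O
  /-- norm–reduction on every low component -/
  red : ∀ u : F, u ∈ D.O → ∀ i' : ι',
    D'.redF i' (N u) = ∏ i ∈ Finset.univ.filter (fun i => a i = i'), φ i i' (D.redF i u)
  /-- norms of functions regular off the cusps are regular off the cusps -/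
  chart : ∀ (m : ℕ) (h : F), h ∈ D.𝓛 m 0 → N h ∈ 𝓛'
  φ_const : ∀ i : ι, PreservesConst (R := R) (φ i (a i))
  /-- values at the multipoints -/
  val : ∀ (i : ι) (c : Fin D.s) (ρ : Fk i) (v : k),
    HasValueAt (D.x i c) ρ v → HasValueAt (D'.x (a i) (cN c)) (φ i (a i) ρ) (v ^ t i)
  /-- orders of norms -/
  ord : ∀ (u : F) (w : ι → ℤ), u ≠ 0 →
    (∀ i, (D.V i).O.valuation u = (D.V i).O.valuation (D.ϖ i) ^ w i) → ∀ i' : ι',
    (D'.V i').O.valuation (N u) = (D'.V i').O.valuation (D'.ϖ i') ^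
      (∑ i ∈ Finset.univ.filter (fun i => a i = i'), (f i : ℤ) * w i)

/-- the component `i` is GENERIC for the pattern `(a, φ)`: alone in its fibre, and `φ i (a i)` has a
constant preserving retraction up to an `r`-th power with `r` prime to `n`. -/
def IsGenericAt (R : ValuationSubring K) [∀ i, Algebra (IsLocalRing.ResidueField R) (Fk i)]
    [∀ i, Algebra (IsLocalRing.ResidueField R) (Gk i)] (n : ℕ) (a : ι → ι')
    (φ : ∀ (i : ι) (i' : ι'), Fk i →* Gk i') (i : ι) : Prop :=
  (∀ j, a j = a i → j = i) ∧ ∃ (r : ℕ) (ρ : Gk (a i) →* Fk i), Nat.Coprime r n ∧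
    PreservesConst (R := R) ρ ∧ ∀ y, ρ (φ i (a i) y) = y ^ r

/-- **The hypotheses of the chain**, all exponents. -/
structure ChainCtxK (D : MDatum R F ι Fk) (D' : MDatum R G ι' Gk) (𝓛' : Set G)
    (g : ℕ) (gk' : ι' → ℕ) (n Q : ℕ) (KS : KummerSystemK D g n)
    (Nα Nβ : F →* G) (aα aβ : ι → ι') (φα φβ : ∀ (i : ι) (i' : ι'), Fk i →* Gk i')
    (tα tβ fα fβ : ι → ℕ) (cα cβ : Fin D.s → Fin D'.s) : Prop where
  -- the three exports of (G)
  twist : ExistsTwistStatement D g
  nondeg : NondegStatement D g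
  core : CoreStatement D g
  -- the base
  base : BaseDVR R D.π
  hn : (n : k) ≠ 0
  hQ : 1 ≤ Q
  /-- `L(0) = K` on the generic fibre -/
  const00 : ∀ f : F, f ∈ D.𝓛 0 0 → ∃ c : K, f = algebraMap K F c
  -- the top places
  e_pos : ∀ i, 0 < D.e i
  unif_pow : ∀ i, ∃ u : (D.V i).Oˣ, D.ϖ i ^ D.e i = algebraMap K F D.π * ((u : (D.V i).O) : F)
  ne : ∀ i j, i ≠ j → (D.V i).O ≠ (D.V j).O
  -- the low level
  π_eq : D'.π = D.π
  e_pos' : ∀ i', 0 < D'.e i'
  unif_pow' : ∀ i', ∃ u : (D'.V i').Oˣ,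
    D'.ϖ i' ^ D'.e i' = algebraMap K G D.π * ((u : (D'.V i').O) : G)
  /-- the low base component is reduced -/
  e_base' : D'.e D'.i₀ = 1
  hG : ∀ i', IsCurveOfGenus k (Gk i') (gk' i')
  low_smul : ∀ (c : K) (f : G), f ∈ 𝓛' → algebraMap K G c * f ∈ 𝓛'
  low_root : ∀ f : G, f ^ n ∈ 𝓛' → f ∈ 𝓛'
  /-- (GLUE) at the low level -/
  low_glue : ∀ f : G, f ∈ 𝓛' → f ∈ D'.O → ∀ c', ∃ γ : k,
    ∀ i', HasValueAt (D'.x i' c') (D'.redF i' f) γ
  -- the two norms
  normα : NormCtxK D D' 𝓛' Nα aα φα tα fα cα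
  normβ : NormCtxK D D' 𝓛' Nβ aβ φβ tβ fβ cβ
  /-- every component is generic along `α` or along `β` -/
  generic : ∀ i, IsGenericAt R n aα φα i ∨ IsGenericAt R n aβ φβ i
  /-- **combinatorics of the orders**: congruences `α_* w ≡ mα e'`, `β_* w ≡ mβ e'` force `w ≡ m e` -/
  comb_ord : ∀ (w : ι → ℤ) (mα mβ : ℤ),
    (∀ i', ∑ i ∈ Finset.univ.filter (fun i => aα i = i'), (fα i : ℤ) * w i ≡
      mα * (D'.e i' : ℤ) [ZMOD n]) →
    (∀ i', ∑ i ∈ Finset.univ.filter (fun i => aβ i = i'), (fβ i : ℤ) * w i ≡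
      mβ * (D'.e i' : ℤ) [ZMOD n]) →
    ∃ m : ℤ, ∀ i, w i ≡ m * (D.e i : ℤ) [ZMOD n]
  /-- **combinatorics of the toric part**: the relations produced by the two norm steps force the
  `Q`-th power of the (normalised) twist to be constant -/
  comb_tor : ∀ (lam : Fin D.s → ι → k) (kα kβ : ι' → k) (γα γβ : Fin D.s → k),
    (∀ c i, lam c i ≠ 0) → (∀ c, lam c D.i₀ = 1) → (∀ i', kα i' ≠ 0) → (∀ i', kβ i' ≠ 0) →
    (∀ c i', kα i' * ∏ i ∈ Finset.univ.filter (fun i => aα i = i'), lam c i ^ tα i = γα c) →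
    (∀ c i', kβ i' * ∏ i ∈ Finset.univ.filter (fun i => aβ i = i'), lam c i ^ tβ i = γβ c) →
    ∃ lam₀ : ι → k, ∀ c i, lam c i ^ Q = lam₀ i

end Fermat.Agent.S45lib.Chain
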