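/-
S45lib / Chain / Basic  (helper7)

Generalities for the chain of (C45):
* ramified Gauss data: valuations of constants (`ram_val_pi`, `ram_valuation_algebraMap`);
* finite products and `HasValueAt` (`hasValueAt_prod`);
* the transported fields of `NormCtxK` (`val'`, `φ_const'`), the singleton fibre of a generic
  component (`red_generic`);
* a family of ramified Gauss data over a discretely valued base: rank one, pairwise incomparable
  (`fam_isArch`, `fam_not_le`);
* **`exists_unit_decomp`** : a trivial Kummer function `y = c hⁿ` which is a unit at every place of a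
  family containing a REDUCED one (`e = 1`) is `c₁ h₁ⁿ` with `c₁ ∈ Rˣ` and `h₁` a unit at every place;
  hence its reductions are in `kˣ (κˣ)ⁿ` (`isConstMulPow_redF_of_units`).
-/
import Mathlib
import Fermat.Agent.S45lib.Chain.Setup
import Fermat.Agent.S36lib.J.Step3

set_option autoImplicit false
set_option linter.unusedSectionVars false
set_option linter.unusedVariables false

noncomputable section

namespace Fermat.Agent.S45lib.Chain

open AlgebraicCurve Module
open Fermat.Agent.S18lib Fermat.Agent.S36lib.Norm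
open Fermat.Agent.S36lib.Thick (RamGaussDatum)
open Fermat.Agent.S36lib.J
open Fermat.Agent.LSb (HasValueAt)
open Fermat.Agent.LSc (IsConstMulPow)
open Fermat.Agent.S45lib.MThick

variable {K : Type*} [Field K] {R : ValuationSubring K}

local notation "k" => IsLocalRing.ResidueField R

/-! ### finite products and values -/

theorem hasValueAt_prod {k₀ κ : Type*} [Field k₀] [Field κ] [Algebra k₀ κ]
    (Q : AlgebraicCurve.Place k₀ κ) {J : Type*} (s : Finset J) (z : J → κ) (c : J → k₀)
    (h : ∀ j ∈ s, HasValueAt Q (z j) (c j)) :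
    HasValueAt Q (∏ j ∈ s, z j) (∏ j ∈ s, c j) := by
  classical
  induction s using Finset.induction_on with
  | empty =>
    rw [Finset.prod_empty, Finset.prod_empty]
    exact Fermat.Agent.LSb.hasValueAt_one
  | insert j s hj ih =>
    rw [Finset.prod_insert hj, Finset.prod_insert hj]
    exact (h j (Finset.mem_insert_self j s)).mul
      (ih fun l hl => h l (Finset.mem_insert_of_mem hl))

/-! ### one ramified Gauss datum -/

section OneRam

variable {π : K} (B : BaseDVR R π)
variable {F : Type*} [Field F] [Algebra K F]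
variable {κ : Type*} [Field κ] [Algebra (IsLocalRing.ResidueField R) κ]
variable (V : RamGaussDatum R F κ)

/-- `v(π) = v(ϖ)^e` -/
theorem ram_val_pi {e : ℕ}
    (hup : ∃ u : V.Oˣ, V.unif ^ e = algebraMap K F π * ((u : V.O) : F)) :
    V.O.valuation (algebraMap K F π) = V.O.valuation V.unif ^ e := by
  obtain ⟨u, hu⟩ := hup
  have := congrArg V.O.valuation hu
  rw [map_mul, valuation_unit, mul_one, map_pow] at this
  exact this.symm

include B in
/-- the valuation of a constant at a ramified Gauss datum -/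
theorem ram_valuation_algebraMap {e : ℕ}
    (hup : ∃ u : V.Oˣ, V.unif ^ e = algebraMap K F π * ((u : V.O) : F)) {c : K} (hc : c ≠ 0) :
    V.O.valuation (algebraMap K F c) = V.O.valuation V.unif ^ ((e : ℤ) * B.ord c) := by
  rw [valuation_algebraMap B V.O V.algebraMap_mem_iff hc, ram_val_pi V hup, ← zpow_natCast,
    ← zpow_mul]

theorem ram_val_unif_ne_zero : V.O.valuation V.unif ≠ 0 ∨ V.unif = 0 := by
  by_cases h : V.unif = 0
  · exact Or.inr h
  · exact Or.inl ((map_ne_zero _).2 h)

/-- the reduction of a constant of `R` -/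
theorem ram_redF_algebraMap (a : R) :
    (ramPlace V).redF (algebraMap K F (a : K)) =
      algebraMap (IsLocalRing.ResidueField R) κ (IsLocalRing.residue R a) := by
  have hm : algebraMap K F (a : K) ∈ (ramPlace V).O := (V.algebraMap_mem_iff _).2 a.2
  rw [(ramPlace V).redF_of_mem hm]
  exact V.red_algebraMap a _

end OneRam

/-! ### families of ramified Gauss data -/

section Fam

variable {π : K} (B : BaseDVR R π)
variable {F : Type*} [Field F] [Algebra K F]
variable {ι : Type*} {Fk : ι → Type*} [∀ i, Field (Fk i)]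
variable [∀ i, Algebra (IsLocalRing.ResidueField R) (Fk i)]
variable (V : ∀ i, RamGaussDatum R F (Fk i))

include B in
theorem fam_isArch (i : ι) : IsArch (V i).O := ram_isArch B (V i)

include B in
theorem fam_not_le (hne : ∀ i j, i ≠ j → (V i).O ≠ (V j).O) (i j : ι) (hij : i ≠ j) :
    ¬ (V i).O ≤ (V j).O :=
  not_le_of_isArch (ram_isArch B (V i)) (ram_ne_top B (V j)) (hne i j hij)

include B in
/-- **normalisation of a trivial Kummer function which is a unit at every place** of a family with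
a reduced member `i₀`. -/
theorem exists_unit_decomp (e : ι → ℕ)
    (hup : ∀ i, ∃ u : (V i).Oˣ, (V i).unif ^ e i = algebraMap K F π * ((u : (V i).O) : F))
    (i₀ : ι) (he₀ : e i₀ = 1) {n : ℕ} (hn : n ≠ 0) {y : F} (hy : IsConstPow K n y)
    (hunit : ∀ i, (V i).O.valuation y = 1) :
    ∃ (c₁ : K) (h₁ : F), c₁ ∈ R ∧ c₁⁻¹ ∈ R ∧ c₁ ≠ 0 ∧ h₁ ≠ 0 ∧
      (∀ i, (V i).O.valuation h₁ = 1) ∧ y = algebraMap K F c₁ * h₁ ^ n := by
  obtain ⟨c, h, hc, hh, rfl⟩ := hy
  have hπ0 : π ≠ 0 := B.π_ne_zero
  have hπF : algebraMap K F π ≠ 0 := (map_ne_zero _).2 hπ0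
  -- the base place
  have hϖ₀ : (V i₀).unif ≠ 0 := ram_unif_ne_zero B (V i₀)
  have hlt₀ := valuation_unif_lt_one (V i₀)
  obtain ⟨m₀, hm₀⟩ := ram_exists_zpow (V i₀) hh
  have h0 := hunit i₀
  rw [map_mul, map_pow, ram_valuation_algebraMap B (V i₀) (hup i₀) hc, hm₀, he₀, ← zpow_natCast,
    ← zpow_mul, ← zpow_add₀ ((map_ne_zero _).2 hϖ₀)] at h0
  have hexp : ((1 : ℕ) : ℤ) * B.ord c + m₀ * (n : ℤ) = 0 :=
    zpow_valuation_injective (V i₀).O hϖ₀ hlt₀ (h0.trans (zpow_zero _).symm)
  have hexp' : B.ord c = -(m₀ * (n : ℤ)) := by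
    have : ((1 : ℕ) : ℤ) = 1 := by norm_num
    rw [this, one_mul] at hexp
    linarith
  -- the new constant and the new root
  obtain ⟨hc1, hc1i⟩ := B.ord_spec hc
  set c₁ : K := c * π ^ (-(B.ord c)) with hc₁
  set h₁ : F := h * (algebraMap K F π) ^ (-m₀) with hh₁
  have hc₁0 : c₁ ≠ 0 := mul_ne_zero hc (zpow_ne_zero _ hπ0)
  have hh₁0 : h₁ ≠ 0 := mul_ne_zero hh (zpow_ne_zero _ hπF)
  have heq : algebraMap K F c * h ^ n = algebraMap K F c₁ * h₁ ^ n := by
    rw [hc₁, hh₁, map_mul, map_zpow₀, mul_pow, ← zpow_natCast ((algebraMap K F π) ^ (-m₀)) n,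
      ← zpow_mul, hexp']
    have e1 : (algebraMap K F π) ^ (- -(m₀ * (n : ℤ))) * (algebraMap K F π) ^ (-m₀ * (n : ℤ)) = 1 := by
      rw [← zpow_add₀ hπF]
      have : - -(m₀ * (n : ℤ)) + -m₀ * (n : ℤ) = 0 := by ring
      rw [this, zpow_zero]
    calc algebraMap K F c * h ^ n = algebraMap K F c * h ^ n * 1 := (mul_one _).symm
      _ = algebraMap K F c * h ^ n * ((algebraMap K F π) ^ (- -(m₀ * (n : ℤ))) *
            (algebraMap K F π) ^ (-m₀ * (n : ℤ))) := by rw [e1]
      _ = _ := by ring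
  refine ⟨c₁, h₁, hc1, hc1i, hc₁0, hh₁0, fun i => ?_, heq⟩
  -- `c₁` is a unit at `i`, hence so is `h₁`
  have hv1 : (V i).O.valuation (algebraMap K F c₁) = 1 := by
    refine valuation_eq_one_of_mem_of_inv_mem _ ((map_ne_zero _).2 hc₁0)
      (((V i).algebraMap_mem_iff _).2 hc1) ?_
    rw [← map_inv₀]
    exact ((V i).algebraMap_mem_iff _).2 hc1i
  have := hunit i
  rw [heq, map_mul, map_pow, hv1, one_mul] at this
  exact eq_one_of_pow_eq_one₀ hn this

include B in
/-- the reductions of a trivial Kummer function which is a unit at every place are trivial. -/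
theorem isConstMulPow_redF_of_units (e : ι → ℕ)
    (hup : ∀ i, ∃ u : (V i).Oˣ, (V i).unif ^ e i = algebraMap K F π * ((u : (V i).O) : F))
    (i₀ : ι) (he₀ : e i₀ = 1) {n : ℕ} (hn : n ≠ 0) {y : F} (hy : IsConstPow K n y)
    (hunit : ∀ i, (V i).O.valuation y = 1) (i : ι) :
    IsConstMulPow (A := R) n ((ramPlace (V i)).redF y) := by
  obtain ⟨c₁, h₁, hc1, hc1i, hc₁0, hh₁0, hh₁v, rfl⟩ :=
    exists_unit_decomp B V e hup i₀ he₀ hn hy hunit
  have hcO : algebraMap K F c₁ ∈ (ramPlace (V i)).O := ((V i).algebraMap_mem_iff _).2 hc1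
  obtain ⟨hh1, hh1i⟩ := mem_and_inv_mem_of_valuation_eq_one _ (hh₁v i)
  have hhO : h₁ ∈ (ramPlace (V i)).O := hh1
  have hr : (ramPlace (V i)).redF h₁ ≠ 0 :=
    ((ramPlace (V i)).redF_ne_zero_iff hhO).2 (hh₁v i)
  refine ⟨IsLocalRing.residue R ⟨c₁, hc1⟩, (ramPlace (V i)).redF h₁, ?_, hr, ?_⟩
  · intro h0
    have h1 : (ramPlace (V i)).redF (algebraMap K F c₁) ≠ 0 := by
      refine ((ramPlace (V i)).redF_ne_zero_iff hcO).2 ?_
      refine valuation_eq_one_of_mem_of_inv_mem _ ((map_ne_zero _).2 hc₁0) hcO ?_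
      rw [← map_inv₀]
      exact ((V i).algebraMap_mem_iff _).2 hc1i
    rw [ram_redF_algebraMap (V i) ⟨c₁, hc1⟩, h0, map_zero] at h1
    exact h1 rfl
  · rw [(ramPlace (V i)).redF_mul hcO ((ramPlace (V i)).O.pow_mem hhO n),
      (ramPlace (V i)).redF_pow hhO, ram_redF_algebraMap (V i) ⟨c₁, hc1⟩]

end Fam

/-! ### the transported fields of a norm pattern -/

section Pattern

variable {F : Type*} [Field F] [Algebra K F]
variable {ι : Type*} [Fintype ι] [DecidableEq ι] {Fk : ι → Type*} [∀ i, Field (Fk i)]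
variable [∀ i, Algebra (IsLocalRing.ResidueField R) (Fk i)]
variable {G : Type*} [Field G] [Algebra K G]
variable {ι' : Type*} [Fintype ι'] [DecidableEq ι'] {Gk : ι' → Type*} [∀ i, Field (Gk i)]
variable [∀ i, Algebra (IsLocalRing.ResidueField R) (Gk i)]
variable {D : MDatum R F ι Fk} {D' : MDatum R G ι' Gk} {𝓛' : Set G} {N : F →* G}
variable {a : ι → ι'} {φ : ∀ (i : ι) (i' : ι'), Fk i →* Gk i'} {t f : ι → ℕ}
variable {cN : Fin D.s → Fin D'.s}

theorem redF_eq (D : MDatum R F ι Fk) (i : ι) (y : F) :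
    D.redF i y = (ramPlace (D.V i)).redF y := rfl

theorem NormCtxK.val' (Y : NormCtxK D D' 𝓛' N a φ t f cN) (i : ι) (i' : ι') (hi : a i = i')
    (c : Fin D.s) (ρ : Fk i) (v : k) (h : HasValueAt (D.x i c) ρ v) :
    HasValueAt (D'.x i' (cN c)) (φ i i' ρ) (v ^ t i) := by
  subst hi
  exact Y.val i c ρ v h

theorem NormCtxK.φ_const' (Y : NormCtxK D D' 𝓛' N a φ t f cN) (i : ι) (i' : ι') (hi : a i = i') :
    PreservesConst (R := R) (φ i i') := by
  subst hi
  exact Y.φ_const i

/-- the norm–reduction formula at a component alone in its fibre -/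
theorem NormCtxK.red_generic (Y : NormCtxK D D' 𝓛' N a φ t f cN) {i : ι}
    (hi : ∀ j, a j = a i → j = i) {u : F} (hu : u ∈ D.O) :
    D'.redF (a i) (N u) = φ i (a i) (D.redF i u) := by
  rw [Y.red u hu (a i)]
  have : Finset.univ.filter (fun j => a j = a i) = {i} := by
    ext j
    simp only [Finset.mem_filter, Finset.mem_univ, true_and, Finset.mem_singleton]
    exact ⟨hi j, fun h => by rw [h]⟩
  rw [this, Finset.prod_singleton]

end Pattern

end Fermat.Agent.S45lib.Chain
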