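/-
S45lib / Chain / Step1  (helper7)

First step of the chain: the orders `w i` of a Kummer function `u` with
`Nα u, Nβ u ∈ Kˣ (Gˣ)ⁿ` satisfy `w ≡ m e (mod n)` (`comb_ord`); hence `u = u' · y` with `u'` a
multi-unit (a unit at every component) and `y = π^m g₀ⁿ` a trivial Kummer function.
-/
import Mathlib
import Fermat.Agent.S45lib.Chain.Basic

set_option autoImplicit false
set_option linter.unusedSectionVars false
set_option linter.unusedVariables false

noncomputable section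

namespace Fermat.Agent.S45lib.Chain

open AlgebraicCurve Module
open Fermat.Agent.S18lib Fermat.Agent.S36lib.Norm
open Fermat.Agent.S36lib.Thick (RamGaussDatum)
open Fermat.Agent.S36lib.J
open Fermat.Agent.LSb (HasValueAt)
open Fermat.Agent.LSc (IsConstMulPow)
open Fermat.Agent.S45lib.MThick

variable {K : Type*} [Field K] {R : ValuationSubring K}
variable {F : Type*} [Field F] [Algebra K F]
variable {ι : Type*} [Fintype ι] [DecidableEq ι] {Fk : ι → Type*} [∀ i, Field (Fk i)]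
variable [∀ i, Algebra (IsLocalRing.ResidueField R) (Fk i)]
variable {G : Type*} [Field G] [Algebra K G]
variable {ι' : Type*} [Fintype ι'] [DecidableEq ι'] {Gk : ι' → Type*} [∀ i, Field (Gk i)]
variable [∀ i, Algebra (IsLocalRing.ResidueField R) (Gk i)]
variable {D : MDatum R F ι Fk} {D' : MDatum R G ι' Gk} {𝓛' : Set G}
variable {g : ℕ} {gk' : ι' → ℕ} {n Q : ℕ} {KS : KummerSystemK D g n}
variable {Nα Nβ : F →* G} {aα aβ : ι → ι'} {φα φβ : ∀ (i : ι) (i' : ι'), Fk i →* Gk i'}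
variable {tα tβ fα fβ : ι → ℕ} {cα cβ : Fin D.s → Fin D'.s}

local notation "k" => IsLocalRing.ResidueField R

/-- closure of `IsKum` under powers -/
theorem KummerSystemK.isKum_pow {z : F} (hz : KS.IsKum z) (m : ℕ) : KS.IsKum (z ^ m) := by
  induction m with
  | zero =>
    rw [pow_zero]
    have := KS.const 1 one_ne_zero
    rwa [map_one] at this
  | succ m ih =>
    rw [pow_succ]
    exact KS.mul _ _ ih hz

/-- a trivial Kummer function is Kummer -/
theorem KummerSystemK.isKum_of_isConstPow {y : F} (hy : IsConstPow K n y) : KS.IsKum y := by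
  obtain ⟨c, h, hc, hh, rfl⟩ := hy
  exact KS.mul _ _ (KS.const c hc) (KS.npow h hh)

namespace ChainCtxK

variable (X : ChainCtxK D D' 𝓛' g gk' n Q KS Nα Nβ aα aβ φα φβ tα tβ fα fβ cα cβ)

include X

theorem n_ne_zero : n ≠ 0 := by
  rintro rfl
  exact X.hn Nat.cast_zero

theorem n_pos : 0 < n := Nat.pos_of_ne_zero X.n_ne_zero

theorem πF_ne_zero : algebraMap K F D.π ≠ 0 := algebraMap_pi_ne_zero X.base

theorem πG_ne_zero : algebraMap K G D.π ≠ 0 := algebraMap_pi_ne_zero X.base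

theorem ϖ_ne_zero (i : ι) : D.ϖ i ≠ 0 := ram_unif_ne_zero X.base (D.V i)

theorem ϖ'_ne_zero (i' : ι') : D'.ϖ i' ≠ 0 := ram_unif_ne_zero X.base (D'.V i')

theorem arch (i : ι) : IsArch (D.V i).O := ram_isArch X.base (D.V i)

theorem not_le (i j : ι) (hij : i ≠ j) : ¬ (D.V i).O ≤ (D.V j).O :=
  fam_not_le X.base D.V X.ne i j hij

/-- the congruence of the orders along one norm -/
theorem ord_congr {N : F →* G} {a : ι → ι'} {φ : ∀ (i : ι) (i' : ι'), Fk i →* Gk i'}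
    {t f : ι → ℕ} {cN : Fin D.s → Fin D'.s} (Y : NormCtxK D D' 𝓛' N a φ t f cN)
    {u : F} (hu0 : u ≠ 0) (w : ι → ℤ)
    (hw : ∀ i, (D.V i).O.valuation u = (D.V i).O.valuation (D.ϖ i) ^ w i)
    (hN : IsConstPow K n (N u)) :
    ∃ m : ℤ, ∀ i', ∑ i ∈ Finset.univ.filter (fun i => a i = i'), (f i : ℤ) * w i ≡
      m * (D'.e i' : ℤ) [ZMOD n] := by
  obtain ⟨c, h, hc, hh, e⟩ := hN
  refine ⟨X.base.ord c, fun i' => ?_⟩
  have h1 := Y.ord u w hu0 hw i'
  obtain ⟨m', hm'⟩ := ram_exists_zpow (D'.V i') hh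
  have hϖ0 := X.ϖ'_ne_zero i'
  rw [e, map_mul, map_pow, ram_valuation_algebraMap X.base (D'.V i') (X.unif_pow' i') hc, hm',
    ← zpow_natCast, ← zpow_mul, ← zpow_add₀ ((map_ne_zero _).2 hϖ0)] at h1
  have h2 := zpow_valuation_injective (D'.V i').O hϖ0 (valuation_unif_lt_one (D'.V i')) h1
  rw [← h2]
  refine (Int.modEq_iff_dvd).2 ⟨-m', ?_⟩
  ring

/-- **Step 1.** -/
theorem exists_multi_unit {u : F} (hu : KS.IsKum u) (hα : IsConstPow K n (Nα u))
    (hβ : IsConstPow K n (Nβ u)) :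
    ∃ u' y : F, KS.IsKum u' ∧ IsConstPow K n (Nα u') ∧ IsConstPow K n (Nβ u') ∧
      (∀ i, (D.V i).O.valuation u' = 1) ∧ IsConstPow K n y ∧ u = u' * y := by
  classical
  have B := X.base
  have hu0 : u ≠ 0 := KS.ne_zero u hu
  have hπF := X.πF_ne_zero
  have hw : ∀ i, ∃ w : ℤ, (D.V i).O.valuation u = (D.V i).O.valuation (D.ϖ i) ^ w :=
    fun i => ram_exists_zpow (D.V i) hu0
  choose w hw using hw
  obtain ⟨mα, cα'⟩ := X.ord_congr X.normα hu0 w hw hα
  obtain ⟨mβ, cβ'⟩ := X.ord_congr X.normβ hu0 w hw hβ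
  obtain ⟨m, hm⟩ := X.comb_ord w mα mβ cα' cβ'
  have hw' : ∀ i, ∃ w' : ℤ, w i = m * (D.e i : ℤ) + (n : ℤ) * w' := by
    intro i
    obtain ⟨d, hd⟩ := (Int.modEq_iff_dvd).1 (hm i).symm
    exact ⟨d, by linarith⟩
  choose w' hw' using hw'
  -- a function with orders `w'`
  haveI : Nonempty ι := ⟨D.i₀⟩
  obtain ⟨g₀, hg₀, hg⟩ := exists_valuation_eq (fun i => (D.V i).O) X.not_le X.arch
    (fun i => D.ϖ i ^ w' i) (fun i => zpow_ne_zero _ (X.ϖ_ne_zero i))
  have hπm : D.π ^ m ≠ 0 := zpow_ne_zero m B.π_ne_zero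
  set y : F := algebraMap K F D.π ^ m * g₀ ^ n with hy
  have hyP : IsConstPow K n y := ⟨D.π ^ m, g₀, hπm, hg₀, by rw [hy, map_zpow₀]⟩
  have hy0 : y ≠ 0 := hyP.ne_zero
  set u' : F := u * y⁻¹ with hu'
  have huy : u = u' * y := by
    rw [hu', mul_assoc, inv_mul_cancel₀ hy0, mul_one]
  have hyK : KS.IsKum y := KS.isKum_of_isConstPow hyP
  have hu'K : KS.IsKum u' := KS.mul _ _ hu (KS.inv _ hyK)
  have hNα : IsConstPow K n (Nα u') := by
    rw [hu', map_mul]
    exact hα.mul (IsConstPow.map Nα X.normα.const hyP.inv)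
  have hNβ : IsConstPow K n (Nβ u') := by
    rw [hu', map_mul]
    exact hβ.mul (IsConstPow.map Nβ X.normβ.const hyP.inv)
  refine ⟨u', y, hu'K, hNα, hNβ, fun i => ?_, hyP, huy⟩
  have hϖ0 : (D.V i).O.valuation (D.ϖ i) ≠ 0 := (map_ne_zero _).2 (X.ϖ_ne_zero i)
  rw [hu', map_mul, map_inv₀, hy, map_mul, map_pow, map_zpow₀, hg i, map_zpow₀, hw i,
    ram_val_pi (D.V i) (X.unif_pow i), ← zpow_natCast ((D.V i).O.valuation (D.ϖ i)) (D.e i),
    ← zpow_mul, ← zpow_natCast _ n, ← zpow_mul, ← zpow_add₀ hϖ0, ← zpow_neg, ← zpow_add₀ hϖ0,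
    hw' i]
  have : m * (D.e i : ℤ) + (n : ℤ) * w' i + -((D.e i : ℤ) * m + w' i * (n : ℤ)) = 0 := by ring
  rw [this, zpow_zero]

end ChainCtxK

end Fermat.Agent.S45lib.Chain
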