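/-
S45lib / Chain / Step2  (helper7)

Second step of the chain: for a Kummer multi-unit `u'` with `Nα u', Nβ u' ∈ Kˣ (Gˣ)ⁿ` EVERY reduction
`red_i u'` lies in `kˣ (Fk iˣ)ⁿ` (each component is generic along `α` or along `β`: norm–reduction
on a singleton fibre + the retraction); lifting the `n`-th roots simultaneously one gets
`u' = z · xⁿ` with `z` a multi-unit with CONSTANT reductions.
-/
import Mathlib
import Fermat.Agent.S45lib.Chain.Step1

set_option autoImplicit false
set_option linter.unusedSectionVars false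
set_option linter.unusedVariables false

noncomputable section

namespace Fermat.Agent.S45lib.Chain

open AlgebraicCurve Module
open Fermat.Agent.S18lib Fermat.Agent.S36lib.Norm
open Fermat.Agent.S36lib.Thick (RamGaussDatum)
open Fermat.Agent.S36lib.J
open Fermat.Agent.LSb (HasValueAt)
open Fermat.Agent.LSc (IsConstMulPow)
open Fermat.Agent.S45lib.MThick

variable {K : Type*} [Field K] {R : ValuationSubring K}
variable {F : Type*} [Field F] [Algebra K F]
variable {ι : Type*} [Fintype ι] [DecidableEq ι] {Fk : ι → Type*} [∀ i, Field (Fk i)]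
variable [∀ i, Algebra (IsLocalRing.ResidueField R) (Fk i)]
variable {G : Type*} [Field G] [Algebra K G]
variable {ι' : Type*} [Fintype ι'] [DecidableEq ι'] {Gk : ι' → Type*} [∀ i, Field (Gk i)]
variable [∀ i, Algebra (IsLocalRing.ResidueField R) (Gk i)]
variable {D : MDatum R F ι Fk} {D' : MDatum R G ι' Gk} {𝓛' : Set G}
variable {g : ℕ} {gk' : ι' → ℕ} {n Q : ℕ} {KS : KummerSystemK D g n}
variable {Nα Nβ : F →* G} {aα aβ : ι → ι'} {φα φβ : ∀ (i : ι) (i' : ι'), Fk i →* Gk i'}
variable {tα tβ fα fβ : ι → ℕ} {cα cβ : Fin D.s → Fin D'.s}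

local notation "k" => IsLocalRing.ResidueField R

/-- a function which is a unit at every component lies, with its inverse, in the sup-norm ball -/
theorem mem_O_of_units {D : MDatum R F ι Fk} {u : F} (h : ∀ i, (D.V i).O.valuation u = 1) :
    u ∈ D.O ∧ u⁻¹ ∈ D.O :=
  ⟨MDatum.mem_O.2 fun i => (mem_and_inv_mem_of_valuation_eq_one _ (h i)).1,
    MDatum.mem_O.2 fun i => (mem_and_inv_mem_of_valuation_eq_one _ (h i)).2⟩

namespace ChainCtxK

variable (X : ChainCtxK D D' 𝓛' g gk' n Q KS Nα Nβ aα aβ φα φβ tα tβ fα fβ cα cβ)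

include X

/-- the norm of a multi-unit is a unit at every low component -/
theorem norm_units {N : F →* G} {a : ι → ι'} {φ : ∀ (i : ι) (i' : ι'), Fk i →* Gk i'}
    {t f : ι → ℕ} {cN : Fin D.s → Fin D'.s} (Y : NormCtxK D D' 𝓛' N a φ t f cN)
    {u : F} (hu : ∀ i, (D.V i).O.valuation u = 1) (i' : ι') :
    (D'.V i').O.valuation (N u) = 1 := by
  obtain ⟨h1, h2⟩ := mem_O_of_units hu
  haveI : Nonempty ι := ⟨D.i₀⟩
  have hu0 : u ≠ 0 := by
    rintro rfl
    have := hu D.i₀
    rw [map_zero] at this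
    exact zero_ne_one this
  have hN0 : N u ≠ 0 := monoidHom_ne_zero N hu0
  refine valuation_eq_one_of_mem_of_inv_mem _ hN0 (MDatum.mem_O.1 (Y.mem u h1) i') ?_
  rw [← monoidHom_inv N hu0]
  exact MDatum.mem_O.1 (Y.mem _ h2) i'

/-- **Step 2a** along one norm: the reduction at a generic component is trivial. -/
theorem red_isConstMulPow_of_generic {N : F →* G} {a : ι → ι'}
    {φ : ∀ (i : ι) (i' : ι'), Fk i →* Gk i'} {t f : ι → ℕ} {cN : Fin D.s → Fin D'.s}
    (Y : NormCtxK D D' 𝓛' N a φ t f cN) {u : F} (hu : ∀ i, (D.V i).O.valuation u = 1)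
    (hN : IsConstPow K n (N u)) {i : ι} (hi : IsGenericAt R n a φ i) :
    IsConstMulPow (A := R) n (D.redF i u) := by
  obtain ⟨hfib, r, ρ, hrn, hρ, hρφ⟩ := hi
  have hO := (mem_O_of_units hu).1
  have hr : D.redF i u ≠ 0 :=
    ((ramPlace (D.V i)).redF_ne_zero_iff (MDatum.mem_O.1 hO i)).2 (hu i)
  have h1 : IsConstMulPow (A := R) n (D'.redF (a i) (N u)) :=
    isConstMulPow_redF_of_units X.base D'.V D'.e
      X.unif_pow' D'.i₀ X.e_base'
      X.n_ne_zero hN (X.norm_units Y hu) (a i)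
  rw [Y.red_generic hfib hO] at h1
  have h2 := isConstMulPow_map ρ hρ h1
  rw [hρφ] at h2
  exact isConstMulPow_of_pow hrn hr h2

/-- **Step 2a**: all reductions of a multi-unit with trivial norms are trivial. -/
theorem red_isConstMulPow {u : F} (hu : ∀ i, (D.V i).O.valuation u = 1)
    (hα : IsConstPow K n (Nα u)) (hβ : IsConstPow K n (Nβ u)) (i : ι) :
    IsConstMulPow (A := R) n (D.redF i u) := by
  rcases X.generic i with h | h
  · exact X.red_isConstMulPow_of_generic X.normα hu hα h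
  · exact X.red_isConstMulPow_of_generic X.normβ hu hβ h

/-- **Step 2b**: `u' = z · xⁿ` with `z` a multi-unit with constant reductions. -/
theorem exists_constUnit {u' : F} (hK : KS.IsKum u') (hu : ∀ i, (D.V i).O.valuation u' = 1)
    (hα : IsConstPow K n (Nα u')) (hβ : IsConstPow K n (Nβ u')) :
    ∃ (z y : F) (b : ι → k), KS.IsKum z ∧ IsConstPow K n (Nα z) ∧ IsConstPow K n (Nβ z) ∧
      IsMultiUnit D z b ∧ IsConstPow K n y ∧ u' = z * y := by
  classical
  have hred := X.red_isConstMulPow hu hα hβ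
  choose c s hc hs hcs using hred
  have hO := (mem_O_of_units hu).1
  -- simultaneous lift of the roots
  obtain ⟨x, hx⟩ := exists_lift_family (fun i => ramPlace (D.V i)) X.not_le X.arch s
  haveI : Nonempty ι := ⟨D.i₀⟩
  have hx0 : x ≠ 0 := by
    rintro rfl
    have := (hx D.i₀).2
    rw [Place.redF_zero] at this
    exact hs D.i₀ this.symm
  have hyP : IsConstPow K n (x ^ n) := isConstPow_npow hx0
  have hy0 : x ^ n ≠ 0 := pow_ne_zero n hx0
  set z : F := u' * (x ^ n)⁻¹ with hz
  have huz : u' = z * x ^ n := by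
    rw [hz, mul_assoc, inv_mul_cancel₀ hy0, mul_one]
  have hzK : KS.IsKum z := KS.mul _ _ hK (KS.inv _ (KS.npow x hx0))
  have hNα : IsConstPow K n (Nα z) := by
    rw [hz, map_mul]
    exact hα.mul (IsConstPow.map Nα X.normα.const hyP.inv)
  have hNβ : IsConstPow K n (Nβ z) := by
    rw [hz, map_mul]
    exact hβ.mul (IsConstPow.map Nβ X.normβ.const hyP.inv)
  refine ⟨z, x ^ n, c, hzK, hNα, hNβ, ⟨hc, fun i => ?_⟩, hyP, huz⟩
  have hr : (ramPlace (D.V i)).redF u' ≠ 0 :=
    ((ramPlace (D.V i)).redF_ne_zero_iff (MDatum.mem_O.1 hO i)).2 (hu i)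
  have nx : (ramPlace (D.V i)).redF x ≠ 0 := by rw [(hx i).2]; exact hs i
  have h1 := place_redF_pow_mul_inv_pow (ramPlace (D.V i)) hr nx 1 n
  rw [pow_one, pow_one] at h1
  rw [redF_eq, hz, h1, (hx i).2, ← redF_eq, hcs i,
    mul_inv_cancel_right₀ (pow_ne_zero _ (hs i))]

end ChainCtxK

end Fermat.Agent.S45lib.Chain
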