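/-
S45lib / Chain / Step3  (helper7)

The norm step of the chain, family form: let `z` be a multi-unit with constant reductions and
`N z = c · h_zⁿ`.  Then `h_z` can be chosen a unit at every low component with CONSTANT reductions
`κ i'`, and for every `h ∈ O` with `hⁿ z ∈ 𝓛 m 0` (regular off the cusps), (GLUE) at the low level
applied to `N h · h_z` relates the values `lam i` of the `red_i h` at a multipoint `c`:

  `κ i' · ∏_{a i = i'} lam i ^ t i`   is independent of the low component `i'`.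
-/
import Mathlib
import Fermat.Agent.S45lib.Chain.Step2

set_option autoImplicit false
set_option linter.unusedSectionVars false
set_option linter.unusedVariables false

noncomputable section

namespace Fermat.Agent.S45lib.Chain

open AlgebraicCurve Module
open Fermat.Agent.S18lib Fermat.Agent.S36lib.Norm
open Fermat.Agent.S36lib.Thick (RamGaussDatum)
open Fermat.Agent.S36lib.J
open Fermat.Agent.LSb (HasValueAt)
open Fermat.Agent.LSc (IsConstMulPow)
open Fermat.Agent.S45lib.MThick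

variable {K : Type*} [Field K] {R : ValuationSubring K}
variable {F : Type*} [Field F] [Algebra K F]
variable {ι : Type*} [Fintype ι] [DecidableEq ι] {Fk : ι → Type*} [∀ i, Field (Fk i)]
variable [∀ i, Algebra (IsLocalRing.ResidueField R) (Fk i)]
variable {G : Type*} [Field G] [Algebra K G]
variable {ι' : Type*} [Fintype ι'] [DecidableEq ι'] {Gk : ι' → Type*} [∀ i, Field (Gk i)]
variable [∀ i, Algebra (IsLocalRing.ResidueField R) (Gk i)]
variable {D : MDatum R F ι Fk} {D' : MDatum R G ι' Gk} {𝓛' : Set G}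
variable {g : ℕ} {gk' : ι' → ℕ} {n Q : ℕ} {KS : KummerSystemK D g n}
variable {Nα Nβ : F →* G} {aα aβ : ι → ι'} {φα φβ : ∀ (i : ι) (i' : ι'), Fk i →* Gk i'}
variable {tα tβ fα fβ : ι → ℕ} {cα cβ : Fin D.s → Fin D'.s}

local notation "k" => IsLocalRing.ResidueField R

/-- a multi-unit with constant reductions is a unit at every component -/
theorem isMultiUnit_valuation_eq_one {D : MDatum R F ι Fk} {z : F} {b : ι → k}
    (hz : IsMultiUnit D z b) (i : ι) : (D.V i).O.valuation z = 1 := by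
  refine (ramPlace (D.V i)).valuation_eq_one_of_redF_ne_zero ?_
  rw [← redF_eq, hz.red i]
  exact (map_ne_zero _).2 (hz.b_ne i)

/-- the product of the images of constants is a constant -/
theorem exists_const_prod {N : F →* G} {a : ι → ι'} {φ : ∀ (i : ι) (i' : ι'), Fk i →* Gk i'}
    {t f : ι → ℕ} {cN : Fin D.s → Fin D'.s} (Y : NormCtxK D D' 𝓛' N a φ t f cN)
    (b : ι → k) (hb : ∀ i, b i ≠ 0) (i' : ι') :
    ∃ β : k, β ≠ 0 ∧ ∏ i ∈ Finset.univ.filter (fun i => a i = i'),
      φ i i' (algebraMap k (Fk i) (b i)) = algebraMap k (Gk i') β := by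
  classical
  have key : ∀ s : Finset ι, (∀ i ∈ s, a i = i') → ∃ β : k, β ≠ 0 ∧
      ∏ i ∈ s, φ i i' (algebraMap k (Fk i) (b i)) = algebraMap k (Gk i') β := by
    intro s
    induction s using Finset.induction_on with
    | empty =>
      intro _
      exact ⟨1, one_ne_zero, by rw [Finset.prod_empty, map_one]⟩
    | insert j s hj ih =>
      intro hs
      obtain ⟨β, hβ, e⟩ := ih fun i hi => hs i (Finset.mem_insert_of_mem hi)
      obtain ⟨β', hβ', e'⟩ := Y.φ_const' j i' (hs j (Finset.mem_insert_self j s)) (b j) (hb j)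
      exact ⟨β' * β, mul_ne_zero hβ' hβ, by rw [Finset.prod_insert hj, e, e', map_mul]⟩
  exact key _ fun i hi => (Finset.mem_filter.1 hi).2

namespace ChainCtxK

variable (X : ChainCtxK D D' 𝓛' g gk' n Q KS Nα Nβ aα aβ φα φβ tα tβ fα fβ cα cβ)

include X

/-- **Step 3** (the norm step, family form). -/
theorem norm_step {N : F →* G} {a : ι → ι'} {φ : ∀ (i : ι) (i' : ι'), Fk i →* Gk i'}
    {t f : ι → ℕ} {cN : Fin D.s → Fin D'.s} (Y : NormCtxK D D' 𝓛' N a φ t f cN)
    {z : F} {b : ι → k} (hz : IsMultiUnit D z b) (hN : IsConstPow K n (N z)) :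
    ∃ κ : ι' → k, (∀ i', κ i' ≠ 0) ∧ ∀ (h : F) (m : ℕ), h ∈ D.O → h ^ n * z ∈ D.𝓛 m 0 →
      ∀ (c : Fin D.s) (lam : ι → k), (∀ i, HasValueAt (D.x i c) (D.redF i h) (lam i)) →
      ∃ γ : k, ∀ i', κ i' * ∏ i ∈ Finset.univ.filter (fun i => a i = i'), lam i ^ t i = γ := by
  classical
  have hn0 := X.n_ne_zero
  have hzu := isMultiUnit_valuation_eq_one hz
  have hzO := (mem_O_of_units hzu).1
  -- `N z = c₁ h₁ⁿ` with `c₁ ∈ Rˣ`, `h₁` a unit at every low component
  obtain ⟨c₁, h₁, hc1, hc1i, hc₁0, hh₁0, hh₁v, eNz⟩ :=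
    exists_unit_decomp X.base D'.V D'.e X.unif_pow' D'.i₀ X.e_base' hn0 hN (X.norm_units Y hzu)
  set cb : k := IsLocalRing.residue R ⟨c₁, hc1⟩ with hcb
  have hcO : ∀ i', algebraMap K G c₁ ∈ (ramPlace (D'.V i')).O :=
    fun i' => ((D'.V i').algebraMap_mem_iff _).2 hc1
  have hcv : ∀ i', (D'.V i').O.valuation (algebraMap K G c₁) = 1 := by
    intro i'
    refine valuation_eq_one_of_mem_of_inv_mem _ ((map_ne_zero _).2 hc₁0) (hcO i') ?_
    rw [← map_inv₀]
    exact ((D'.V i').algebraMap_mem_iff _).2 hc1i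
  have hcb0 : cb ≠ 0 := by
    intro h0
    have h1 : (ramPlace (D'.V D'.i₀)).redF (algebraMap K G c₁) ≠ 0 :=
      ((ramPlace (D'.V D'.i₀)).redF_ne_zero_iff (hcO D'.i₀)).2 (hcv D'.i₀)
    rw [ram_redF_algebraMap (D'.V D'.i₀) ⟨c₁, hc1⟩, ← hcb, h0, map_zero] at h1
    exact h1 rfl
  have hhO : ∀ i', h₁ ∈ (ramPlace (D'.V i')).O :=
    fun i' => (mem_and_inv_mem_of_valuation_eq_one _ (hh₁v i')).1
  -- the reductions of `h₁` are constants
  have hκ : ∀ i', ∃ κ : k, κ ≠ 0 ∧ D'.redF i' h₁ = algebraMap k (Gk i') κ := by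
    intro i'
    obtain ⟨β, hβ, eβ⟩ := exists_const_prod Y b hz.b_ne i'
    have rN : D'.redF i' (N z) = algebraMap k (Gk i') β := by
      rw [Y.red z hzO i', ← eβ]
      refine Finset.prod_congr rfl fun i _ => ?_
      rw [hz.red i]
    refine exists_const_of_pow_eq_const (X.hG i') hn0 (c := β * cb⁻¹)
      (mul_ne_zero hβ (inv_ne_zero hcb0)) ?_
    have h1 := rN
    rw [eNz, redF_eq, (ramPlace (D'.V i')).redF_mul (hcO i')
      ((ramPlace (D'.V i')).O.pow_mem (hhO i') n), ram_redF_algebraMap (D'.V i') ⟨c₁, hc1⟩,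
      (ramPlace (D'.V i')).redF_pow (hhO i'), ← hcb] at h1
    rw [redF_eq, map_mul, ← h1, map_inv₀, mul_comm, ← mul_assoc,
      inv_mul_cancel₀ ((map_ne_zero _).2 hcb0), one_mul]
  choose κ hκ0 hκe using hκ
  refine ⟨κ, hκ0, ?_⟩
  intro h m hhO' hchart c lam hlam
  -- the function `H = N h · h₁`
  set H : G := N h * h₁ with hH
  have hHn : H ^ n = algebraMap K G c₁⁻¹ * N (h ^ n * z) := by
    rw [hH, map_mul, map_pow, eNz, mul_pow, map_inv₀]
    have : algebraMap K G c₁ ≠ 0 := (map_ne_zero _).2 hc₁0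
    field_simp
  have hHL : H ∈ 𝓛' := by
    refine X.low_root H ?_
    rw [hHn]
    exact X.low_smul _ _ (Y.chart m _ hchart)
  have hNh : ∀ i', N h ∈ (ramPlace (D'.V i')).O := fun i' => MDatum.mem_O.1 (Y.mem h hhO') i'
  have hHO : H ∈ D'.O :=
    MDatum.mem_O.2 fun i' => (D'.V i').O.mul_mem _ _ (hNh i') (hhO i')
  obtain ⟨γ, hγ⟩ := X.low_glue H hHL hHO (cN c)
  refine ⟨γ, fun i' => ?_⟩
  have e₁ : D'.redF i' H = (∏ i ∈ Finset.univ.filter (fun i => a i = i'), φ i i' (D.redF i h)) *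
      algebraMap k (Gk i') (κ i') := by
    rw [hH, redF_eq, (ramPlace (D'.V i')).redF_mul (hNh i') (hhO i'), ← redF_eq, ← redF_eq,
      Y.red h hhO' i', hκe i']
  have hv : HasValueAt (D'.x i' (cN c))
      (∏ i ∈ Finset.univ.filter (fun i => a i = i'), φ i i' (D.redF i h))
      (∏ i ∈ Finset.univ.filter (fun i => a i = i'), lam i ^ t i) :=
    hasValueAt_prod _ _ _ _ fun i hi =>
      Y.val' i i' (Finset.mem_filter.1 hi).2 c _ _ (hlam i)
  have h2 := hγ i'
  rw [e₁] at h2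
  have := (hv.mul (Fermat.Agent.LSb.hasValueAt_const (κ i'))).unique h2
  rw [← this, mul_comm]

end ChainCtxK

end Fermat.Agent.S45lib.Chain
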