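/-
S45lib / Chain / Main  (helper7)  --  THE CHAIN (function level), all exponents

**Main theorem** (`ChainCtxK.chain`): in the abstract setting of `Chain/Setup.lean`, a Kummer function
`u` of the top level whose two norms `Nα u`, `Nβ u` to the low level are trivial Kummer functions
(`∈ Kˣ · (Gˣ)ⁿ`) satisfies `u ^ Q ∈ Kˣ · (Fˣ)ⁿ`.

Steps: `exists_multi_unit` (orders), `exists_constUnit` (reductions + lifting of roots),
`norm_step` twice, `comb_tor`, multiplicativity of the twist (`NondegStatement`), the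
multi-component thick Čech core (`CoreStatement`), and `L(0) = K`.
-/
import Mathlib
import Fermat.Agent.S45lib.Chain.Step3

set_option autoImplicit false
set_option linter.unusedSectionVars false
set_option linter.unusedVariables false

noncomputable section

namespace Fermat.Agent.S45lib.Chain

open AlgebraicCurve Module
open Fermat.Agent.S18lib Fermat.Agent.S36lib.Norm
open Fermat.Agent.S36lib.Thick (RamGaussDatum)
open Fermat.Agent.S36lib.J
open Fermat.Agent.LSb (HasValueAt)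
open Fermat.Agent.LSc (IsConstMulPow)
open Fermat.Agent.S45lib.MThick

variable {K : Type*} [Field K] {R : ValuationSubring K}
variable {F : Type*} [Field F] [Algebra K F]
variable {ι : Type*} [Fintype ι] [DecidableEq ι] {Fk : ι → Type*} [∀ i, Field (Fk i)]
variable [∀ i, Algebra (IsLocalRing.ResidueField R) (Fk i)]
variable {G : Type*} [Field G] [Algebra K G]
variable {ι' : Type*} [Fintype ι'] [DecidableEq ι'] {Gk : ι' → Type*} [∀ i, Field (Gk i)]
variable [∀ i, Algebra (IsLocalRing.ResidueField R) (Gk i)]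
variable {D : MDatum R F ι Fk} {D' : MDatum R G ι' Gk} {𝓛' : Set G}
variable {g : ℕ} {gk' : ι' → ℕ} {n Q : ℕ} {KS : KummerSystemK D g n}
variable {Nα Nβ : F →* G} {aα aβ : ι → ι'} {φα φβ : ∀ (i : ι) (i' : ι'), Fk i →* Gk i'}
variable {tα tβ fα fβ : ι → ℕ} {cα cβ : Fin D.s → Fin D'.s}

local notation "k" => IsLocalRing.ResidueField R

/-- powers in the chart families of a Kummer system -/
theorem KummerSystemK.pow_mem_𝓔 (KS : KummerSystemK D g n) {z h : F} (hz : KS.IsKum z) {a b : ℕ}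
    (hh : h ∈ KS.𝓔 z a b) (m : ℕ) (hm : 1 ≤ m) : h ^ m ∈ KS.𝓔 (z ^ m) (m * a) (m * b) := by
  induction m, hm using Nat.le_induction with
  | base => simpa using hh
  | succ m hm ih =>
    have hzm : KS.IsKum (z ^ m) := KS.isKum_pow hz m
    have := KS.𝓔_mul _ _ hzm hz _ _ _ _ _ _ ih hh
    rw [← pow_succ, ← pow_succ] at this
    have e1 : (m + 1) * a = m * a + a := by ring
    have e2 : (m + 1) * b = m * b + b := by ring
    rw [e1, e2]
    exact this

namespace ChainCtxK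

variable (X : ChainCtxK D D' 𝓛' g gk' n Q KS Nα Nβ aα aβ φα φβ tα tβ fα fβ cα cβ)

include X

/-- **Step 4**: a Kummer multi-unit with constant reductions and trivial norms has `z ^ Q`
trivial. -/
theorem core_step {z : F} {b : ι → k} (hzK : KS.IsKum z) (hz : IsMultiUnit D z b)
    (hα : IsConstPow K n (Nα z)) (hβ : IsConstPow K n (Nβ z)) :
    IsConstPow K n (z ^ Q) := by
  classical
  have hn0 := X.n_ne_zero
  have hnpos := X.n_pos
  have hQ1 : 1 ≤ Q := X.hQ
  have hz0 : z ≠ 0 := KS.ne_zero z hzK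
  have hzu := isMultiUnit_valuation_eq_one hz
  have hzO := (mem_O_of_units hzu).1
  -- the twist of `z` and a nondegenerate element
  obtain ⟨lam, hlam, hlam₀, htw⟩ := X.twist n X.hn z (KS.fam z hzK) b hz
  obtain ⟨m₀, hm₀⟩ := X.nondeg n X.hn z (KS.fam z hzK) b hz
  obtain ⟨h, hE, hO, hred⟩ := hm₀ m₀ 0 (Or.inl le_rfl)
  have hval : ∀ c i, HasValueAt (D.x i c) (D.redF i h) (lam c i) := by
    intro c i
    obtain ⟨α, ha⟩ := htw m₀ 0 h hE hO c
    have a0 := ha D.i₀
    rw [hred, hlam₀ c, one_mul] at a0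
    have hα1 : α = 1 := a0.unique Fermat.Agent.LSb.hasValueAt_one
    have ai := ha i
    rwa [hα1, mul_one] at ai
  have hchart : h ^ n * z ∈ D.𝓛 (m₀ + (n - 1) * m₀) 0 := by
    have := (KS.fam z hzK).mixed_mem hE hE
    rwa [← pow_succ', Nat.sub_add_cancel hnpos, Nat.mul_zero, Nat.add_zero] at this
  -- the two norm steps
  obtain ⟨κα, hκα, hAll⟩ := X.norm_step X.normα hz hα
  obtain ⟨κβ, hκβ, hBll⟩ := X.norm_step X.normβ hz hβ
  have hγα : ∀ c, ∃ γ : k, ∀ i', κα i' * ∏ i ∈ Finset.univ.filter (fun i => aα i = i'),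
      lam c i ^ tα i = γ := fun c => hAll h _ hO hchart c (lam c) (hval c)
  have hγβ : ∀ c, ∃ γ : k, ∀ i', κβ i' * ∏ i ∈ Finset.univ.filter (fun i => aβ i = i'),
      lam c i ^ tβ i = γ := fun c => hBll h _ hO hchart c (lam c) (hval c)
  choose γα hγα using hγα
  choose γβ hγβ using hγβ
  obtain ⟨lam₀, hlamQ⟩ := X.comb_tor lam κα κβ γα γβ hlam hlam₀ hκα hκβ hγα hγβ
  -- the power `z ^ Q`
  have hz₂K : KS.IsKum (z ^ Q) := KS.isKum_pow hzK Q
  have hz₂ : IsMultiUnit D (z ^ Q) (fun i => b i ^ Q) := by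
    refine ⟨fun i => pow_ne_zero _ (hz.b_ne i), fun i => ?_⟩
    rw [redF_eq, (ramPlace (D.V i)).redF_pow (MDatum.mem_O.1 hzO i), ← redF_eq, hz.red i, map_pow]
  obtain ⟨lam', hlam', hlam'₀, htw'⟩ := X.twist n X.hn (z ^ Q) (KS.fam _ hz₂K) _ hz₂
  -- `h ^ Q` computes the twist of `z ^ Q`
  have hhQE : h ^ Q ∈ (KS.fam _ hz₂K).𝓔 (Q * m₀) (Q * 0) := by
    rw [KS.fam_𝓔]
    refine KS.pow_mem_𝓔 hzK ?_ Q hQ1
    rw [← KS.fam_𝓔 z hzK]
    exact hE
  have hhQO : h ^ Q ∈ D.O := D.O.pow_mem hO Q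
  have hhQred : D.redF D.i₀ (h ^ Q) = 1 := by
    rw [redF_eq, (ramPlace (D.V D.i₀)).redF_pow (MDatum.mem_O.1 hO D.i₀), ← redF_eq, hred,
      one_pow]
  have hlam'c : ∀ c i, lam' c i = lam₀ i := by
    intro c i
    obtain ⟨α, ha⟩ := htw' (Q * m₀) (Q * 0) (h ^ Q) hhQE hhQO c
    have a0 := ha D.i₀
    rw [hhQred, hlam'₀ c, one_mul] at a0
    have hα1 : α = 1 := a0.unique Fermat.Agent.LSb.hasValueAt_one
    have ai := ha i
    rw [hα1, mul_one, redF_eq, (ramPlace (D.V i)).redF_pow (MDatum.mem_O.1 hO i), ← redF_eq] at ai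
    exact (ai.unique ((hval c i).pow Q)).trans (hlamQ c i)
  have hl : lam' = fun _ => lam₀ := funext fun c => funext fun i => hlam'c c i
  rw [hl] at htw'
  -- the thick Čech core
  obtain ⟨t, ht0, htE⟩ := X.core n X.hn (z ^ Q) (KS.fam _ hz₂K) _ hz₂ lam₀ htw'
  have hmix := (KS.fam _ hz₂K).mixed_mem htE htE
  rw [← pow_succ', Nat.sub_add_cancel hnpos] at hmix
  have hmix' : t ^ n * z ^ Q ∈ D.𝓛 0 0 := by simpa using hmix
  obtain ⟨c', hc'⟩ := X.const00 _ hmix'
  have htn : t ^ n ≠ 0 := pow_ne_zero n ht0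
  have hc'0 : c' ≠ 0 := by
    rintro rfl
    rw [map_zero] at hc'
    exact mul_ne_zero htn (pow_ne_zero Q hz0) hc'
  refine ⟨c', t⁻¹, hc'0, inv_ne_zero ht0, ?_⟩
  rw [← hc', inv_pow, mul_comm, ← mul_assoc, inv_mul_cancel₀ htn, one_mul]

/-- **The chain (function level), all exponents.**  A Kummer function of the top level whose norms
along both degeneracy maps are trivial Kummer functions has a trivial `Q`-th power. -/
theorem chain {u : F} (hu : KS.IsKum u) (hα : IsConstPow K n (Nα u))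
    (hβ : IsConstPow K n (Nβ u)) : IsConstPow K n (u ^ Q) := by
  obtain ⟨u', y, hu'K, hα', hβ', hv, hyP, huy⟩ := X.exists_multi_unit hu hα hβ
  obtain ⟨z, y', b, hzK, hαz, hβz, hz, hy'P, hu'z⟩ := X.exists_constUnit hu'K hv hα' hβ'
  have hzQ := X.core_step hzK hz hαz hβz
  have e : u ^ Q = z ^ Q * y' ^ Q * y ^ Q := by
    rw [huy, hu'z, mul_pow, mul_pow]
  rw [e]
  exact (hzQ.mul (hy'P.pow _)).mul (hyP.pow _)

end ChainCtxK

end Fermat.Agent.S45lib.Chain
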