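/-
S45lib / Chain / NormInst  (helper7)  --  from STEP DATA along `ψ` to a norm pattern `NormCtxK`

The relative step `ψ : G →+* F` (`α` or `β`, `F_{k-1} → F_k`, of degree `q`) with, for every top
component `i`, the place `V i` of `F` lying over the place `V' (a i)` of `G` with relative
ramification index `ε i` and residue embedding `ιres i (a i) : Gk (a i) →+* Fk i` of degree `f i`
(`StepDataK`).  The residue maps of the pattern are

      `φ i i' := (N_{ιres i i'}) ^ ε i`     (`stepφ`, `resNorm`),

and the ONLY property of the residue extensions used besides finiteness is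

      `ιres (N z) = z ^ f`                 (`res_norm`),

true when `ιres` is bijective (`f = 1`, `resNorm_of_bijective`) and when it is purely inseparable of
degree `f = p` (`resNorm_of_insep`).  Then (`StepDataK.normCtx`) all the fields of
`NormCtxK D D' 𝓛' (normMonoidHom ψ) a (stepφ ιres ε) (ε · f) f cN` except `chart` (an input) follow
from `S36lib/Norm` (`RamDatum.redF_norm`, `RamDatum.val_norm` on the fibres of `a`), and
(`StepDataK.isGenericAt`) a component alone in its fibre is generic as soon as `[F : G]` is prime to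
`n` (retraction `ρ = ιres`, `r = ε f = [F : G]`).
-/
import Mathlib
import Fermat.Agent.S45lib.Chain.Basic
import Fermat.Agent.S36lib.Norm.Along
import Fermat.Agent.S36lib.Norm.ChainInst
import Fermat.Agent.S36lib.Norm.ThickBridge

set_option autoImplicit false
set_option linter.unusedSectionVars false
set_option linter.unusedVariables false
set_option linter.style.haveILetI false

noncomputable section

namespace Fermat.Agent.S45lib.Chain

open AlgebraicCurve Module
open Fermat.Agent.S18lib Fermat.Agent.S36lib.Norm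
open Fermat.Agent.S36lib.Thick (RamGaussDatum)
open Fermat.Agent.S36lib.J
open Fermat.Agent.LSb (HasValueAt)
open Fermat.Agent.S45lib.MThick

/-! ### the norm of residue fields along an embedding -/

section ResNorm

variable {κ' κ : Type*} [Field κ'] [Field κ]

/-- the norm of residue fields along an embedding, as a monoid homomorphism -/
def resNorm (ι : κ' →+* κ) : κ →* κ' :=
  letI := ι.toAlgebra
  Algebra.norm κ'

theorem resNorm_map (ι : κ' →+* κ) (a : κ') : resNorm ι (ι a) = a ^ finrankHom ι := by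
  letI := ι.toAlgebra
  exact Algebra.norm_algebraMap a

/-- **degree one**: `ιres` bijective -/
theorem resNorm_of_bijective (ι : κ' →+* κ) (h : Function.Bijective ι) :
    FiniteHom ι ∧ finrankHom ι = 1 ∧ ∀ z, ι (resNorm ι z) = z ^ 1 := by
  letI := ι.toAlgebra
  have hsurj : Function.Surjective (algebraMap κ' κ) := h.2
  have hbot : (⊥ : Subalgebra κ' κ) = ⊤ := by
    rw [eq_top_iff]
    intro x _
    obtain ⟨a, rfl⟩ := hsurj x
    exact Subalgebra.algebraMap_mem _ a
  have hfin : Module.Finite κ' κ := by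
    have : Module.Finite κ' (⊥ : Subalgebra κ' κ) := inferInstance
    rw [hbot] at this
    exact Module.Finite.equiv (Subalgebra.topEquiv (R := κ') (A := κ)).toLinearEquiv
  have hrank : Module.finrank κ' κ = 1 := by
    have h1 : Module.finrank κ' (⊥ : Subalgebra κ' κ) = 1 := Subalgebra.finrank_bot
    rw [hbot] at h1
    rw [← h1]
    exact (Subalgebra.topEquiv (R := κ') (A := κ)).toLinearEquiv.finrank_eq.symm
  refine ⟨hfin, hrank, fun z => ?_⟩
  obtain ⟨a, rfl⟩ := hsurj z
  show ι (Algebra.norm κ' (algebraMap κ' κ a)) = _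
  rw [Algebra.norm_algebraMap, hrank, pow_one, pow_one]
  rfl

/-- **Frobenius type**: `κ / ι κ'` purely inseparable of degree `p` -/
theorem resNorm_of_insep (ι : κ' →+* κ) (p : ℕ) [Fact p.Prime] [CharP κ' p]
    (hκ : finrankHom ι = p) (hinsep : ∀ z : κ, ∃ a : κ', ι a = z ^ p) (z : κ) :
    ι (resNorm ι z) = z ^ p := by
  letI := ι.toAlgebra
  obtain ⟨a, ha⟩ := hinsep z
  have h1 : resNorm ι z ^ p = a ^ p := by
    rw [← map_pow, ← ha, resNorm_map, hκ]
  rw [frobenius_inj κ' p h1, ha]

end ResNorm

variable {K : Type*} [Field K] {R : ValuationSubring K}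
variable {F : Type*} [Field F] [Algebra K F]
variable {ι : Type*} [Fintype ι] [DecidableEq ι] {Fk : ι → Type*} [∀ i, Field (Fk i)]
variable [∀ i, Algebra (IsLocalRing.ResidueField R) (Fk i)]
variable {G : Type*} [Field G] [Algebra K G]
variable {ι' : Type*} [Fintype ι'] [DecidableEq ι'] {Gk : ι' → Type*} [∀ i, Field (Gk i)]
variable [∀ i, Algebra (IsLocalRing.ResidueField R) (Gk i)]

local notation "k" => IsLocalRing.ResidueField R

/-- the residue maps of the pattern of a step: `φ i i' = (N_{ιres i i'}) ^ ε i` -/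
def stepφ (ιres : ∀ (i : ι) (i' : ι'), Gk i' →+* Fk i) (ε : ι → ℕ) (i : ι) (i' : ι') :
    Fk i →* Gk i' :=
  resNorm (ιres i i') ^ ε i

theorem stepφ_apply (ιres : ∀ (i : ι) (i' : ι'), Gk i' →+* Fk i) (ε : ι → ℕ) (i : ι) (i' : ι')
    (z : Fk i) : stepφ ιres ε i i' z = resNorm (ιres i i') z ^ ε i := rfl

/-- **THE STEP DATA** along `ψ : G →+* F` (low level `G`, top level `F`): component map `a`,
residue embeddings `ιres i (a i)` (only these are used), relative ramification indices `ε`, residue
degrees `f`, map `cN` on the multipoints. -/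
structure StepDataK (D : MDatum R F ι Fk) (D' : MDatum R G ι' Gk) (ψ : G →+* F)
    (a : ι → ι') (ιres : ∀ (i : ι) (i' : ι'), Gk i' →+* Fk i) (ε f : ι → ℕ)
    (cN : Fin D.s → Fin D'.s) : Prop where
  /-- `ψ` is `K`-linear -/
  ψ_const : ∀ c : K, ψ (algebraMap K G c) = algebraMap K F c
  fin : FiniteHom ψ
  /-- the top place `i` lies over the low place `a i`, relative ramification index `ε i` -/
  lies : ∀ i, RamOverAlong ψ (ιres i (a i)) (ramPlace (D'.V (a i))) (D'.ϖ (a i))
    (ramPlace (D.V i)) (D.ϖ i) (ε i)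
  ne : ∀ i j, i ≠ j → (D.V i).O ≠ (D.V j).O
  /-- the residue embeddings are `k`-linear -/
  res_const : ∀ i (c : k), ιres i (a i) (algebraMap k (Gk (a i)) c) = algebraMap k (Fk i) c
  res_fin : ∀ i, FiniteHom (ιres i (a i))
  res_deg : ∀ i, finrankHom (ιres i (a i)) = f i
  /-- degree one or Frobenius type (`resNorm_of_bijective`, `resNorm_of_insep`) -/
  res_norm : ∀ i (z : Fk i), ιres i (a i) (resNorm (ιres i (a i)) z) = z ^ f i
  /-- the fundamental equality on every fibre -/
  hdeg : ∀ i', ∑ i ∈ Finset.univ.filter (fun i => a i = i'), ε i * f i = finrankHom ψ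
  /-- the multipoint `x i c` lies over `x' (a i) (cN c)` -/
  pt : ∀ i c (z : Gk (a i)) (v : k), HasValueAt (D.x i c) (ιres i (a i) z) v →
    HasValueAt (D'.x (a i) (cN c)) z v

namespace StepDataK

variable {D : MDatum R F ι Fk} {D' : MDatum R G ι' Gk} {ψ : G →+* F}
variable {a : ι → ι'} {ιres : ∀ (i : ι) (i' : ι'), Gk i' →+* Fk i} {ε f : ι → ℕ}
variable {cN : Fin D.s → Fin D'.s}
variable (S : StepDataK D D' ψ a ιres ε f cN)
include S

theorem lies' (i : ι) (i' : ι') (hi : a i = i') :
    RamOverAlong ψ (ιres i i') (ramPlace (D'.V i')) (D'.ϖ i') (ramPlace (D.V i)) (D.ϖ i) (ε i) := by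
  subst hi
  exact S.lies i

theorem res_fin' (i : ι) (i' : ι') (hi : a i = i') : FiniteHom (ιres i i') := by
  subst hi
  exact S.res_fin i

theorem res_deg' (i : ι) (i' : ι') (hi : a i = i') : finrankHom (ιres i i') = f i := by
  subst hi
  exact S.res_deg i

theorem res_norm' (i : ι) (i' : ι') (hi : a i = i') (z : Fk i) :
    ιres i i' (resNorm (ιres i i') z) = z ^ f i := by
  subst hi
  exact S.res_norm i z

/-- `ιres (φ z) = z ^ (ε f)` -/
theorem res_stepφ (i : ι) (z : Fk i) :
    ιres i (a i) (stepφ ιres ε i (a i) z) = z ^ (ε i * f i) := by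
  rw [stepφ_apply, map_pow, S.res_norm i z, ← pow_mul, mul_comm]

/-- the low uniformizers -/
theorem low_isUnif (B' : BaseDVR R D'.π) (i' : ι') : IsUnif (D'.V i').O (D'.ϖ i') :=
  isUnif_ofRamGauss (D'.V i') (ram_unif_ne_zero B' (D'.V i'))

/-- the family datum of the fibre over `i'` -/
theorem ramDatum (B' : BaseDVR R D'.π) (i' : ι') :
    letI : ∀ j : {i // a i = i'}, Algebra (Gk i') (Fk j.1) := fun j => (ιres j.1 i').toAlgebra
    letI := ψ.toAlgebra
    RamDatum (ramPlace (D'.V i')) (D'.ϖ i') (fun j : {i // a i = i'} => ramPlace (D.V j.1))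
      (fun j => D.ϖ j.1) (fun j => ε j.1) := by
  letI : ∀ j : {i // a i = i'}, Algebra (Gk i') (Fk j.1) := fun j => (ιres j.1 i').toAlgebra
  letI := ψ.toAlgebra
  refine RamDatum.of_ramOver (S.low_isUnif B' i') (fun j => ?_) (fun j l hjl => ?_)
  · exact (S.lies' j.1 i' j.2).toRamOver
  · exact S.ne j.1 l.1 (fun h => hjl (Subtype.ext h))

/-- **norm–reduction** on the low component `i'` -/
theorem red_mem (B' : BaseDVR R D'.π) {u : F} (hu : u ∈ D.O) (i' : ι') :
    normMonoidHom ψ u ∈ (D'.V i').O ∧
      D'.redF i' (normMonoidHom ψ u) =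
        ∏ i ∈ Finset.univ.filter (fun i => a i = i'), stepφ ιres ε i i' (D.redF i u) := by
  letI : ∀ j : {i // a i = i'}, Algebra (Gk i') (Fk j.1) := fun j => (ιres j.1 i').toAlgebra
  letI := ψ.toAlgebra
  haveI : FiniteDimensional G F := S.fin
  haveI : ∀ j : {i // a i = i'}, Module.Finite (Gk i') (Fk j.1) := fun j => S.res_fin' j.1 i' j.2
  have RD := S.ramDatum B' i'
  have hdeg : ∑ j : {i // a i = i'}, ε j.1 * Module.finrank (Gk i') (Fk j.1) =
      Module.finrank G F := by
    have h1 := S.hdeg i'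
    rw [Finset.sum_subtype (Finset.univ.filter (fun i => a i = i')) (p := fun i => a i = i')
      (by simp) (fun i => ε i * f i)] at h1
    rw [show Module.finrank G F = finrankHom ψ from rfl, ← h1]
    refine Finset.sum_congr rfl fun j _ => ?_
    rw [← S.res_deg' j.1 i' j.2]
    rfl
  obtain ⟨hmem, hred⟩ := RD.redF_norm hdeg (u := u) (fun j => (MDatum.mem_O.1 hu) j.1)
  refine ⟨hmem, ?_⟩
  rw [redF_eq]
  show (ramPlace (D'.V i')).redF (Algebra.norm G u) = _
  rw [hred, Finset.prod_subtype (Finset.univ.filter (fun i => a i = i')) (p := fun i => a i = i')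
      (by simp) (fun i => stepφ ιres ε i i' (D.redF i u))]
  rfl

/-- **orders of norms** on the low component `i'` -/
theorem ord_norm (B' : BaseDVR R D'.π) (u : F) (w : ι → ℤ)
    (hw : ∀ i, (D.V i).O.valuation u = (D.V i).O.valuation (D.ϖ i) ^ w i) (i' : ι') :
    (D'.V i').O.valuation (normMonoidHom ψ u) = (D'.V i').O.valuation (D'.ϖ i') ^
      (∑ i ∈ Finset.univ.filter (fun i => a i = i'), (f i : ℤ) * w i) := by
  letI : ∀ j : {i // a i = i'}, Algebra (Gk i') (Fk j.1) := fun j => (ιres j.1 i').toAlgebra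
  letI := ψ.toAlgebra
  haveI : FiniteDimensional G F := S.fin
  haveI : ∀ j : {i // a i = i'}, Module.Finite (Gk i') (Fk j.1) := fun j => S.res_fin' j.1 i' j.2
  have RD := S.ramDatum B' i'
  have hdeg : ∑ j : {i // a i = i'}, ε j.1 * Module.finrank (Gk i') (Fk j.1) =
      Module.finrank G F := by
    have h1 := S.hdeg i'
    rw [Finset.sum_subtype (Finset.univ.filter (fun i => a i = i')) (p := fun i => a i = i')
      (by simp) (fun i => ε i * f i)] at h1
    rw [show Module.finrank G F = finrankHom ψ from rfl, ← h1]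
    refine Finset.sum_congr rfl fun j _ => ?_
    rw [← S.res_deg' j.1 i' j.2]
    rfl
  have hπgen : ∀ x : G, x ≠ 0 → ∃ n : ℤ, (ramPlace (D'.V i')).O.valuation x =
      (ramPlace (D'.V i')).O.valuation (D'.ϖ i') ^ n := fun x hx => ram_exists_zpow (D'.V i') hx
  have h := RD.val_norm hdeg hπgen (u := u) (fun j => w j.1) (fun j => hw j.1)
  show (ramPlace (D'.V i')).O.valuation (Algebra.norm G u) = _
  rw [h, Finset.sum_subtype (Finset.univ.filter (fun i => a i = i')) (p := fun i => a i = i')
      (by simp) (fun i => (f i : ℤ) * w i)]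
  congr 1
  refine Finset.sum_congr rfl fun j _ => ?_
  rw [← S.res_deg' j.1 i' j.2]
  rfl

/-- the residue maps preserve the constants -/
theorem φ_const (i : ι) : PreservesConst (R := R) (stepφ ιres ε i (a i)) := by
  intro c hc
  refine ⟨(c ^ finrankHom (ιres i (a i))) ^ ε i, pow_ne_zero _ (pow_ne_zero _ hc), ?_⟩
  rw [stepφ_apply, ← S.res_const i c, resNorm_map, map_pow, map_pow]

/-- the values at the multipoints -/
theorem val (i : ι) (c : Fin D.s) (ρ : Fk i) (v : k) (h : HasValueAt (D.x i c) ρ v) :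
    HasValueAt (D'.x (a i) (cN c)) (stepφ ιres ε i (a i) ρ) (v ^ (ε i * f i)) := by
  apply S.pt i c
  rw [S.res_stepφ i ρ]
  exact h.pow _

/-- **the norm pattern of a step** (`chart` is an input) -/
theorem normCtx (B' : BaseDVR R D'.π) (𝓛' : Set G)
    (hchart : ∀ (m : ℕ) (h : F), h ∈ D.𝓛 m 0 → normMonoidHom ψ h ∈ 𝓛') :
    NormCtxK D D' 𝓛' (normMonoidHom ψ) a (stepφ ιres ε) (fun i => ε i * f i) f cN where
  const := normMonoidHom_const ψ S.ψ_const
  mem u hu := by
    rw [MDatum.mem_O]
    exact fun i' => (S.red_mem B' hu i').1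
  red u hu i' := (S.red_mem B' hu i').2
  chart := hchart
  φ_const := S.φ_const
  val := S.val
  ord u w _ hw i' := S.ord_norm B' u w hw i'

/-- a component ALONE in its fibre is generic as soon as `[F : G]` is prime to `n` -/
theorem isGenericAt {n : ℕ} (hn : Nat.Coprime (finrankHom ψ) n) {i : ι}
    (hi : ∀ j, a j = a i → j = i) : IsGenericAt R n a (stepφ ιres ε) i := by
  refine ⟨hi, ε i * f i, (ιres i (a i)).toMonoidHom, ?_, ?_, fun y => S.res_stepφ i y⟩
  · have h1 := S.hdeg (a i)
    have : Finset.univ.filter (fun j => a j = a i) = {i} := by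
      ext j
      simp only [Finset.mem_filter, Finset.mem_univ, true_and, Finset.mem_singleton]
      exact ⟨hi j, fun h => by rw [h]⟩
    rw [this, Finset.sum_singleton] at h1
    rw [h1]
    exact hn
  · intro c hc
    exact ⟨c, hc, S.res_const i c⟩

end StepDataK

end Fermat.Agent.S45lib.Chain
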