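/-
S45lib / Chain / Table  (helper2)  --  the COMBINATORIAL tables of the chain (C45), top exponent
`k = j + 1 ≥ 3`

Convention (helper7, #h7-H55 D2): a component of the fibre of level `M q^k` is indexed by the number
`b` of `V`-steps (`a = k - b`).  Top level `k = j + 1`: `ι = Fin (j + 2)`; low level `j`:
`ι' = Fin (j + 1)`.

* `aAlpha j b = b - 1` (fibre over `0` is `{0, 1}`, over `b' ≥ 1` is `{b' + 1}`),
  `aBeta j b = min b j` (fibre over `j` is `{j, j + 1}`, over `b' < j` is `{b'}`);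
* `tAlpha`, `tBeta` (exponents of the values at the multipoints), `fAlpha`, `fBeta` (order
  multipliers);
* the fibres: `filter_aAlpha_of_two_le`, `filter_aAlpha_zero`, `filter_aBeta_of_lt`,
  `filter_aBeta_last`, and the injectivity statements `aAlpha_inj_of_two_le`, `aBeta_inj_of_lt`
  (every component is alone in its `α`-fibre or in its `β`-fibre, `2 ≤ j`: `generic_cover`);
* the identities of the multiplicities `eK_mul_fAlpha`, `eK_mul_fBeta`;
* **`comb_ord_table`**, **`comb_tor_table`** : the two combinatorial fields of `Chain.ChainCtxK`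
  (with `Q = q ^ 2`, base component `0`).
-/
import Mathlib
import Fermat.Agent.S45lib.CountK.Weights

set_option autoImplicit false

namespace Fermat.Agent.S45lib.Chain

open Finset Fermat.Agent.S45lib.CountK

/-! ### the patterns -/

/-- the low component under the top component `b` along `α` -/
def aAlpha (j : ℕ) (b : Fin (j + 2)) : Fin (j + 1) := ⟨(b : ℕ) - 1, by omega⟩

/-- the low component under the top component `b` along `β` -/
def aBeta (j : ℕ) (b : Fin (j + 2)) : Fin (j + 1) := ⟨min (b : ℕ) j, by omega⟩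

/-- exponent of the values at the multipoints along `α` -/
def tAlpha (q j : ℕ) (b : Fin (j + 2)) : ℕ :=
  if (b : ℕ) = 0 then 1 else if (b : ℕ) = 1 then q - 1 else q

/-- exponent of the values at the multipoints along `β` -/
def tBeta (q j : ℕ) (b : Fin (j + 2)) : ℕ :=
  if (b : ℕ) = j + 1 then 1 else if (b : ℕ) = j then q - 1 else q

/-- order multiplier (residue degree) along `α` -/
def fAlpha (q j : ℕ) (b : Fin (j + 2)) : ℕ := if j + 2 ≤ 2 * (b : ℕ) then q else 1

/-- order multiplier (residue degree) along `β` -/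
def fBeta (q j : ℕ) (b : Fin (j + 2)) : ℕ := if 2 * (b : ℕ) ≤ j then q else 1

@[simp] theorem aAlpha_val (j : ℕ) (b : Fin (j + 2)) : ((aAlpha j b : Fin (j + 1)) : ℕ) = b - 1 :=
  rfl

@[simp] theorem aBeta_val (j : ℕ) (b : Fin (j + 2)) :
    ((aBeta j b : Fin (j + 1)) : ℕ) = min (b : ℕ) j := rfl

/-! ### the fibres -/

theorem aAlpha_inj_of_two_le {j : ℕ} {b i : Fin (j + 2)} (hb : 2 ≤ (b : ℕ))
    (h : aAlpha j i = aAlpha j b) : i = b := by
  have h1 := congrArg (fun x : Fin (j + 1) => (x : ℕ)) h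
  simp only [aAlpha_val] at h1
  apply Fin.ext
  omega

theorem aBeta_inj_of_lt {j : ℕ} {b i : Fin (j + 2)} (hb : (b : ℕ) < j)
    (h : aBeta j i = aBeta j b) : i = b := by
  have h1 := congrArg (fun x : Fin (j + 1) => (x : ℕ)) h
  simp only [aBeta_val] at h1
  apply Fin.ext
  omega

/-- every component is alone in its `α`-fibre or in its `β`-fibre (`2 ≤ j`) -/
theorem generic_cover {j : ℕ} (hj : 2 ≤ j) (b : Fin (j + 2)) :
    (∀ i, aAlpha j i = aAlpha j b → i = b) ∨ (∀ i, aBeta j i = aBeta j b → i = b) := by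
  by_cases hb : 2 ≤ (b : ℕ)
  · exact Or.inl fun i h => aAlpha_inj_of_two_le hb h
  · exact Or.inr fun i h => aBeta_inj_of_lt (by omega) h

theorem filter_aAlpha_of_two_le {j : ℕ} {b : Fin (j + 2)} (hb : 2 ≤ (b : ℕ)) :
    (univ.filter fun i => aAlpha j i = aAlpha j b) = {b} := by
  ext i
  simp only [mem_filter, mem_univ, true_and, mem_singleton]
  exact ⟨fun h => aAlpha_inj_of_two_le hb h, fun h => by rw [h]⟩

theorem filter_aBeta_of_lt {j : ℕ} {b : Fin (j + 2)} (hb : (b : ℕ) < j) :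
    (univ.filter fun i => aBeta j i = aBeta j b) = {b} := by
  ext i
  simp only [mem_filter, mem_univ, true_and, mem_singleton]
  exact ⟨fun h => aBeta_inj_of_lt hb h, fun h => by rw [h]⟩

/-- the special fibre of `α` -/
theorem filter_aAlpha_zero (j : ℕ) :
    (univ.filter fun i => aAlpha j i = (0 : Fin (j + 1))) = {(0 : Fin (j + 2)), 1} := by
  ext i
  simp only [mem_filter, mem_univ, true_and, mem_insert, mem_singleton]
  constructor
  · intro h
    have h1 := congrArg (fun x : Fin (j + 1) => (x : ℕ)) h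
    simp only [aAlpha_val, Fin.val_zero] at h1
    have h2 : (i : ℕ) = 0 ∨ (i : ℕ) = 1 := by omega
    rcases h2 with h2 | h2
    · exact Or.inl (Fin.ext h2)
    · refine Or.inr (Fin.ext ?_)
      rw [h2]
      simp
  · rintro (rfl | rfl)
    · exact Fin.ext (by simp)
    · exact Fin.ext (by simp)

/-- the special fibre of `β` -/
theorem filter_aBeta_last (j : ℕ) :
    (univ.filter fun i => aBeta j i = Fin.last j) =
      {(Fin.last j).castSucc, Fin.last (j + 1)} := by
  ext i
  simp only [mem_filter, mem_univ, true_and, mem_insert, mem_singleton]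
  constructor
  · intro h
    have h1 := congrArg (fun x : Fin (j + 1) => (x : ℕ)) h
    simp only [aBeta_val, Fin.val_last] at h1
    have h3 := i.2
    have h2 : (i : ℕ) = j ∨ (i : ℕ) = j + 1 := by omega
    rcases h2 with h2 | h2
    · exact Or.inl (Fin.ext (by simp [h2]))
    · exact Or.inr (Fin.ext (by simp [h2]))
  · rintro (rfl | rfl)
    · exact Fin.ext (by simp)
    · exact Fin.ext (by simp)

/-! ### the multiplicities -/

theorem eK_zero (q k : ℕ) : eK q k 0 = 1 := by
  unfold eK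
  simp

theorem eK_one {q k : ℕ} (hq : q.Prime) (hk : 2 ≤ k) : eK q k 1 = q - 1 := by
  unfold eK
  have h : min 1 (k - 1) = 1 := by omega
  rw [h, pow_one, Nat.totient_prime hq]

theorem totient_pow_succ_succ {q : ℕ} (hq : q.Prime) (m : ℕ) :
    Nat.totient (q ^ (m + 2)) = q * Nat.totient (q ^ (m + 1)) := by
  rw [Nat.totient_prime_pow_succ hq, Nat.totient_prime_pow_succ hq, pow_succ]
  ring

/-- `e_b · fα_b = q · e'_{b-1}` for `2 ≤ b` -/
theorem eK_mul_fAlpha {q j : ℕ} (hq : q.Prime) (b : Fin (j + 2)) (hb : 2 ≤ (b : ℕ)) :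
    eK q (j + 1) b * fAlpha q j b = q * eK q j ((b : ℕ) - 1) := by
  have hb2 := b.2
  unfold eK fAlpha
  split_ifs with h
  · have h1 : min (b : ℕ) (j + 1 - b) = j + 1 - b := by omega
    have h2 : min ((b : ℕ) - 1) (j - ((b : ℕ) - 1)) = j + 1 - b := by omega
    rw [h1, h2, mul_comm]
  · have h1 : min (b : ℕ) (j + 1 - b) = ((b : ℕ) - 2) + 2 := by omega
    have h2 : min ((b : ℕ) - 1) (j - ((b : ℕ) - 1)) = ((b : ℕ) - 2) + 1 := by omega
    rw [h1, h2, mul_one, totient_pow_succ_succ hq]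

/-- `e_b · fβ_b = q · e'_b` for `b < j` -/
theorem eK_mul_fBeta {q j : ℕ} (hq : q.Prime) (b : Fin (j + 2)) (hb : (b : ℕ) < j) :
    eK q (j + 1) b * fBeta q j b = q * eK q j b := by
  unfold eK fBeta
  split_ifs with h
  · have h1 : min (b : ℕ) (j + 1 - b) = b := by omega
    have h2 : min (b : ℕ) (j - b) = b := by omega
    rw [h1, h2, mul_comm]
  · have h1 : min (b : ℕ) (j + 1 - b) = (j - b - 1) + 2 := by omega
    have h2 : min (b : ℕ) (j - b) = (j - b - 1) + 1 := by omega
    rw [h1, h2, mul_one, totient_pow_succ_succ hq]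

/-! ### the orders -/

/-- **combinatorics of the orders** (field `comb_ord` of `Chain.ChainCtxK`): the congruences
`α_* w ≡ mα e'`, `β_* w ≡ mβ e'` modulo `n` (prime to `q`) force `w ≡ m e` -/
theorem comb_ord_table {q j n : ℕ} (hq : q.Prime) (hj : 2 ≤ j) (hqn : Nat.Coprime q n)
    (w : Fin (j + 2) → ℤ) (mα mβ : ℤ)
    (hα : ∀ i' : Fin (j + 1), ∑ i ∈ univ.filter (fun i => aAlpha j i = i'),
      (fAlpha q j i : ℤ) * w i ≡ mα * (eK q j i' : ℤ) [ZMOD n])
    (hβ : ∀ i' : Fin (j + 1), ∑ i ∈ univ.filter (fun i => aBeta j i = i'),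
      (fBeta q j i : ℤ) * w i ≡ mβ * (eK q j i' : ℤ) [ZMOD n]) :
    ∃ m : ℤ, ∀ i : Fin (j + 2), w i ≡ m * (eK q (j + 1) i : ℤ) [ZMOD n] := by
  -- pass to `ZMod n`
  set u : (ZMod n)ˣ := ZMod.unitOfCoprime q hqn with hu
  have huq : ((u : (ZMod n)ˣ) : ZMod n) = (q : ZMod n) := ZMod.coe_unitOfCoprime q hqn
  -- the generic `α`-fibres
  have hA : ∀ b : Fin (j + 2), 2 ≤ (b : ℕ) →
      (q : ZMod n) * (w b : ZMod n) = (mα : ZMod n) * (eK q (j + 1) b : ZMod n) := by
    intro b hb
    have h1 := hα (aAlpha j b)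
    rw [filter_aAlpha_of_two_le hb, sum_singleton, ← ZMod.intCast_eq_intCast_iff] at h1
    push_cast at h1
    have h2 := eK_mul_fAlpha hq b hb
    have h3 : (eK q (j + 1) b : ZMod n) * (fAlpha q j b : ZMod n) =
        (q : ZMod n) * (eK q j ((b : ℕ) - 1) : ZMod n) := by exact_mod_cast congrArg (Nat.cast (R := ZMod n)) h2
    rw [aAlpha_val] at h1
    unfold fAlpha at h1 h3
    split_ifs at h1 h3 with h
    · rw [h1]
      have h4 : (eK q (j + 1) b : ZMod n) = (eK q j ((b : ℕ) - 1) : ZMod n) := by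
        rw [mul_comm, ← huq] at h3
        exact (Units.mul_right_inj u).1 h3
      rw [h4]
    · rw [Nat.cast_one, one_mul] at h1
      rw [Nat.cast_one, mul_one] at h3
      rw [h1, h3]
      ring
  -- the generic `β`-fibres
  have hB : ∀ b : Fin (j + 2), (b : ℕ) < j →
      (q : ZMod n) * (w b : ZMod n) = (mβ : ZMod n) * (eK q (j + 1) b : ZMod n) := by
    intro b hb
    have h1 := hβ (aBeta j b)
    rw [filter_aBeta_of_lt hb, sum_singleton, ← ZMod.intCast_eq_intCast_iff] at h1
    push_cast at h1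
    have h2 := eK_mul_fBeta hq b hb
    have h3 : (eK q (j + 1) b : ZMod n) * (fBeta q j b : ZMod n) =
        (q : ZMod n) * (eK q j b : ZMod n) := by exact_mod_cast congrArg (Nat.cast (R := ZMod n)) h2
    rw [aBeta_val] at h1
    have hmin : min (b : ℕ) j = b := by omega
    rw [hmin] at h1
    unfold fBeta at h1 h3
    split_ifs at h1 h3 with h
    · rw [h1]
      have h4 : (eK q (j + 1) b : ZMod n) = (eK q j b : ZMod n) := by
        rw [mul_comm, ← huq] at h3
        exact (Units.mul_right_inj u).1 h3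
      rw [h4]
    · rw [Nat.cast_one, one_mul] at h1
      rw [Nat.cast_one, mul_one] at h3
      rw [h1, h3]
      ring
  -- the special `α`-fibre
  have h0 : (w 0 : ZMod n) + (w 1 : ZMod n) = (mα : ZMod n) := by
    have h1 := hα 0
    rw [filter_aAlpha_zero, sum_pair (by
      intro h
      have := congrArg (fun x : Fin (j + 2) => (x : ℕ)) h
      simp at this), ← ZMod.intCast_eq_intCast_iff] at h1
    push_cast at h1
    have hf0 : fAlpha q j 0 = 1 := by
      unfold fAlpha
      rw [if_neg (by simp)]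
    have hf1 : fAlpha q j 1 = 1 := by
      unfold fAlpha
      rw [if_neg (by
        have : ((1 : Fin (j + 2)) : ℕ) = 1 := by simp
        omega)]
    rw [hf0, hf1, Fin.val_zero, eK_zero] at h1
    simpa using h1
  have hαβ : (mα : ZMod n) = (mβ : ZMod n) := by
    have hb0 := hB 0 (by simp; omega)
    have hb1 := hB 1 (by
      have : ((1 : Fin (j + 2)) : ℕ) = 1 := by simp
      omega)
    have h1v : ((1 : Fin (j + 2)) : ℕ) = 1 := by simp
    rw [Fin.val_zero, eK_zero] at hb0
    rw [h1v, eK_one hq (by omega)] at hb1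
    have hq1 : ((q - 1 : ℕ) : ZMod n) = (q : ZMod n) - 1 := by
      rw [Nat.cast_sub hq.one_lt.le, Nat.cast_one]
    rw [hq1] at hb1
    have h2 : (q : ZMod n) * (mα : ZMod n) = (q : ZMod n) * (mβ : ZMod n) := by
      rw [← h0, mul_add, hb0, hb1]
      ring
    rw [← huq] at h2
    exact (Units.mul_right_inj u).1 h2
  obtain ⟨m, hm⟩ := ZMod.intCast_surjective (((u⁻¹ : (ZMod n)ˣ) : ZMod n) * (mα : ZMod n))
  refine ⟨m, fun b => ?_⟩
  rw [← ZMod.intCast_eq_intCast_iff]
  push_cast
  rw [hm]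
  have key : (q : ZMod n) * (w b : ZMod n) = (mα : ZMod n) * (eK q (j + 1) b : ZMod n) := by
    by_cases hb : 2 ≤ (b : ℕ)
    · exact hA b hb
    · rw [hαβ]
      exact hB b (by omega)
  rw [← huq] at key
  rw [mul_assoc, Units.eq_inv_mul_iff_mul_eq]
  exact key

/-! ### the toric part -/

theorem tBeta_of_lt {q j : ℕ} {b : Fin (j + 2)} (hb : (b : ℕ) < j) : tBeta q j b = q := by
  unfold tBeta
  rw [if_neg (by omega), if_neg (by omega)]

theorem tAlpha_of_two_le {q j : ℕ} {b : Fin (j + 2)} (hb : 2 ≤ (b : ℕ)) : tAlpha q j b = q := by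
  unfold tAlpha
  rw [if_neg (by omega), if_neg (by omega)]

theorem tAlpha_zero (q j : ℕ) : tAlpha q j 0 = 1 := by
  unfold tAlpha
  rw [if_pos (by simp)]

theorem tAlpha_one (q j : ℕ) : tAlpha q j 1 = q - 1 := by
  have h1v : ((1 : Fin (j + 2)) : ℕ) = 1 := by simp
  unfold tAlpha
  rw [if_neg (by omega), if_pos h1v]

/-- **combinatorics of the toric part** (field `comb_tor` of `Chain.ChainCtxK`, `Q = q ^ 2`, base
component `0`): the relations produced by the two norm steps force the `q²`-th power of the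
normalised twist to be constant -/
theorem comb_tor_table {κ : Type*} [Field κ] {C : Type*} {q j : ℕ} (hj : 2 ≤ j)
    (lam : C → Fin (j + 2) → κ) (kα kβ : Fin (j + 1) → κ) (γα γβ : C → κ)
    (_hlam : ∀ c i, lam c i ≠ 0) (h0 : ∀ c, lam c 0 = 1) (hkα : ∀ i', kα i' ≠ 0)
    (hkβ : ∀ i', kβ i' ≠ 0)
    (hα : ∀ c i', kα i' * ∏ i ∈ univ.filter (fun i => aAlpha j i = i'),
      lam c i ^ tAlpha q j i = γα c)
    (hβ : ∀ c i', kβ i' * ∏ i ∈ univ.filter (fun i => aBeta j i = i'),
      lam c i ^ tBeta q j i = γβ c) :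
    ∃ lam₀ : Fin (j + 2) → κ, ∀ c i, lam c i ^ (q ^ 2) = lam₀ i := by
  have h1v : ((1 : Fin (j + 2)) : ℕ) = 1 := by simp
  -- `β`-generic components: `lam c b ^ q` is constant
  have hB : ∀ (c : C) (b : Fin (j + 2)), (b : ℕ) < j →
      kβ (aBeta j b) * lam c b ^ q = γβ c := by
    intro c b hb
    have h1 := hβ c (aBeta j b)
    rwa [filter_aBeta_of_lt hb, prod_singleton, tBeta_of_lt hb] at h1
  have hγβ : ∀ c, γβ c = kβ (aBeta j 0) := by
    intro c
    have h1 := hB c 0 (by simp; omega)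
    rw [h0 c, one_pow, mul_one] at h1
    exact h1.symm
  have hBq : ∀ (c c' : C) (b : Fin (j + 2)), (b : ℕ) < j → lam c b ^ q = lam c' b ^ q := by
    intro c c' b hb
    have h1 := hB c b hb
    have h2 := hB c' b hb
    rw [hγβ] at h1 h2
    exact mul_left_cancel₀ (hkβ _) (h1.trans h2.symm)
  -- the special `α`-fibre
  have hγα : ∀ c, γα c = kα 0 * lam c 1 ^ (q - 1) := by
    intro c
    have h1 := hα c 0
    rw [filter_aAlpha_zero, prod_pair (by
      intro h
      have := congrArg (fun x : Fin (j + 2) => (x : ℕ)) h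
      simp at this), tAlpha_zero, tAlpha_one, h0 c, one_pow, one_mul] at h1
    exact h1.symm
  -- `α`-generic components
  have hA : ∀ (c : C) (b : Fin (j + 2)), 2 ≤ (b : ℕ) →
      kα (aAlpha j b) * lam c b ^ q = kα 0 * lam c 1 ^ (q - 1) := by
    intro c b hb
    have h1 := hα c (aAlpha j b)
    rwa [filter_aAlpha_of_two_le hb, prod_singleton, tAlpha_of_two_le hb, hγα] at h1
  have hAq : ∀ (c c' : C) (b : Fin (j + 2)), 2 ≤ (b : ℕ) →
      lam c b ^ (q ^ 2) = lam c' b ^ (q ^ 2) := by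
    intro c c' b hb
    have h1 := congrArg (fun x => x ^ q) (hA c b hb)
    have h2 := congrArg (fun x => x ^ q) (hA c' b hb)
    simp only [mul_pow, ← pow_mul] at h1 h2
    have h3 : lam c 1 ^ ((q - 1) * q) = lam c' 1 ^ ((q - 1) * q) := by
      rw [mul_comm, pow_mul, pow_mul, hBq c c' 1 (by omega)]
    rw [h3, ← h2] at h1
    have h4 := mul_left_cancel₀ (pow_ne_zero q (hkα (aAlpha j b))) h1
    rwa [sq]
  have hall : ∀ (c c' : C) (b : Fin (j + 2)), lam c b ^ (q ^ 2) = lam c' b ^ (q ^ 2) := by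
    intro c c' b
    by_cases hb : 2 ≤ (b : ℕ)
    · exact hAq c c' b hb
    · rw [sq, pow_mul, pow_mul, hBq c c' b (by omega)]
  by_cases hC : Nonempty C
  · obtain ⟨c₀⟩ := hC
    exact ⟨fun i => lam c₀ i ^ (q ^ 2), fun c i => hall c c₀ i⟩
  · exact ⟨fun _ => 1, fun c => absurd ⟨c⟩ hC⟩

end Fermat.Agent.S45lib.Chain
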