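/-
S45lib / Chain / Bricks  (helper7)  --  THE CHAIN CONTEXT FROM ITS BRICKS, on the explicit tables

For the top level `k = j + 1 ≥ 3` (components `Fin (j+2)`, index = number `b` of `V`-steps) and the low
level `j` (components `Fin (j+1)`), with helper2's tables `aAlpha, aBeta, tAlpha, tBeta, fAlpha, fBeta`
(`Chain/Table.lean`) and helper5's multiplicities `eK`:

  `MCtx` at both levels  +  the three exports of (G)  +  a Kummer system
  +  `StepDataK` along `ψα` and `ψβ` (`Chain/NormInst.lean`)  +  the two charts of the norms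
  +  the low test set `𝓛'` (`low_smul`, `low_root`, `low_glue`)
  ⟹  `ChainCtxK … (q ^ 2) …`   (`chainCtxK_of_bricks`)
  ⟹  `u ^ (q ^ 2) ∈ Kˣ (Fˣ)ⁿ` for every Kummer function `u` with trivial norms  (`chain_of_bricks`).
-/
import Mathlib
import Fermat.Agent.S45lib.Chain.Main
import Fermat.Agent.S45lib.Chain.NormInst
import Fermat.Agent.S45lib.Chain.Table

set_option autoImplicit false
set_option linter.unusedSectionVars false
set_option linter.unusedVariables false

noncomputable section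

namespace Fermat.Agent.S45lib.Chain

open AlgebraicCurve Module
open Fermat.Agent.S18lib Fermat.Agent.S36lib.Norm
open Fermat.Agent.S36lib.Thick (RamGaussDatum)
open Fermat.Agent.S36lib.J (IsConstPow BaseDVR PreservesConst ramPlace)
open Fermat.Agent.LSb (HasValueAt)
open Fermat.Agent.S45lib.MThick
open Fermat.Agent.S45lib.CountK (eK)

variable {K : Type*} [Field K] {R : ValuationSubring K}
variable {F : Type*} [Field F] [Algebra K F]
variable {G : Type*} [Field G] [Algebra K G]
variable {q j : ℕ}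
variable {Fk : Fin (j + 2) → Type*} [∀ i, Field (Fk i)]
variable [∀ i, Algebra (IsLocalRing.ResidueField R) (Fk i)]
variable {Gk : Fin (j + 1) → Type*} [∀ i, Field (Gk i)]
variable [∀ i, Algebra (IsLocalRing.ResidueField R) (Gk i)]

local notation "k" => IsLocalRing.ResidueField R

/-- the base of a multi-component context is a discrete valuation ring -/
theorem baseDVR_of_mctx {ι : Type*} [Fintype ι] [DecidableEq ι] {Fκ : ι → Type*}
    [∀ i, Field (Fκ i)] [∀ i, Algebra (IsLocalRing.ResidueField R) (Fκ i)]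
    {D : MDatum R F ι Fκ} {g : ℕ} {gk : ι → ℕ} (C : MCtx D g gk) : BaseDVR R D.π :=
  ⟨C.π_mem, C.π_not_unit, C.exists_zpow_mul_unit⟩

/-- **the chain context from its bricks.** -/
theorem chainCtxK_of_bricks {n : ℕ} (hq : q.Prime) (hj : 2 ≤ j) (hqn : Nat.Coprime q n)
    {D : MDatum R F (Fin (j + 2)) Fk} {D' : MDatum R G (Fin (j + 1)) Gk}
    {g g' : ℕ} {gk : Fin (j + 2) → ℕ} {gk' : Fin (j + 1) → ℕ}
    (C : MCtx D g gk) (C' : MCtx D' g' gk')
    (twist : ExistsTwistStatement D g) (nondeg : NondegStatement D g) (core : CoreStatement D g)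
    (KS : KummerSystemK D g n) (hπ : D'.π = D.π) (hn : (n : k) ≠ 0)
    (const00 : ∀ f : F, f ∈ D.𝓛 0 0 → ∃ c : K, f = algebraMap K F c)
    (he : ∀ i, D.e i = eK q (j + 1) i) (he' : ∀ i', D'.e i' = eK q j i')
    (hi₀ : D.i₀ = 0)
    {ψα ψβ : G →+* F} {ια ιβ : ∀ (i : Fin (j + 2)) (i' : Fin (j + 1)), Gk i' →+* Fk i}
    {εα εβ : Fin (j + 2) → ℕ} {cα cβ : Fin D.s → Fin D'.s}
    (Sα : StepDataK D D' ψα (aAlpha j) ια εα (fAlpha q j) cα)
    (Sβ : StepDataK D D' ψβ (aBeta j) ιβ εβ (fBeta q j) cβ)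
    (hεα : ∀ i, εα i * fAlpha q j i = tAlpha q j i)
    (hεβ : ∀ i, εβ i * fBeta q j i = tBeta q j i)
    (hdegα : finrankHom ψα = q) (hdegβ : finrankHom ψβ = q)
    (𝓛' : Set G)
    (low_smul : ∀ (c : K) (f : G), f ∈ 𝓛' → algebraMap K G c * f ∈ 𝓛')
    (low_root : ∀ f : G, f ^ n ∈ 𝓛' → f ∈ 𝓛')
    (low_glue : ∀ f : G, f ∈ 𝓛' → f ∈ D'.O → ∀ c', ∃ γ : k,
      ∀ i', HasValueAt (D'.x i' c') (D'.redF i' f) γ)
    (hchartα : ∀ (m : ℕ) (h : F), h ∈ D.𝓛 m 0 → normMonoidHom ψα h ∈ 𝓛')
    (hchartβ : ∀ (m : ℕ) (h : F), h ∈ D.𝓛 m 0 → normMonoidHom ψβ h ∈ 𝓛') :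
    ChainCtxK D D' 𝓛' g gk' n (q ^ 2) KS (normMonoidHom ψα) (normMonoidHom ψβ)
      (aAlpha j) (aBeta j) (stepφ ια εα) (stepφ ιβ εβ) (tAlpha q j) (tBeta q j)
      (fAlpha q j) (fBeta q j) cα cβ := by
  have B : BaseDVR R D.π := baseDVR_of_mctx C
  have B' : BaseDVR R D'.π := baseDVR_of_mctx C'
  have hcopα : Nat.Coprime (finrankHom ψα) n := by rw [hdegα]; exact hqn
  have hcopβ : Nat.Coprime (finrankHom ψβ) n := by rw [hdegβ]; exact hqn
  have htα : (fun i => εα i * fAlpha q j i) = tAlpha q j := funext hεα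
  have htβ : (fun i => εβ i * fBeta q j i) = tBeta q j := funext hεβ
  exact
    { twist := twist
      nondeg := nondeg
      core := core
      base := B
      hn := hn
      hQ := Nat.one_le_pow _ _ hq.pos
      const00 := const00
      e_pos := C.e_pos
      unif_pow := C.unif_pow
      ne := Sα.ne
      π_eq := hπ
      e_pos' := C'.e_pos
      unif_pow' := fun i' => by
        obtain ⟨u, hu⟩ := C'.unif_pow i'
        exact ⟨u, by rw [hu, hπ]⟩
      e_base' := C'.e_base
      hG := C'.hF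
      low_smul := low_smul
      low_root := low_root
      low_glue := low_glue
      normα := htα ▸ Sα.normCtx B' 𝓛' hchartα
      normβ := htβ ▸ Sβ.normCtx B' 𝓛' hchartβ
      generic := fun i => by
        rcases generic_cover hj i with h | h
        · exact Or.inl (Sα.isGenericAt hcopα h)
        · exact Or.inr (Sβ.isGenericAt hcopβ h)
      comb_ord := fun w mα mβ h1 h2 => by
        simp only [he, he'] at h1 h2 ⊢
        exact comb_ord_table hq hj hqn w mα mβ h1 h2
      comb_tor := fun lam kα kβ γα γβ h1 h2 h3 h4 h5 h6 =>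
        comb_tor_table hj lam kα kβ γα γβ h1 (hi₀ ▸ h2) h3 h4 h5 h6 }

end Fermat.Agent.S45lib.Chain
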