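/-
S45lib / Chain / ClassLevel  (helper7)

THE CLASS LEVEL OF (C45), GENERIC IN THE LEVEL AND IN THE EXPONENT `d`.

Copy of helper3's `S36lib/Fin/ClassLevel.smul_eq_zero_of_chainCtx`, with the chain context replaced by
its only consequence that is used, the FUNCTION LEVEL CHAIN STATEMENT

  `FunChain Nα Nβ n d` : a nonzero `u ∈ fixF (N q) H` with `n ∣ div u` whose two norms
                         `Nα u`, `Nβ u ∈ fixF N H` are trivial Kummer functions (`∈ Kˣ · (Gˣ)ⁿ`)
                         has `u ^ d ∈ Kˣ · (Fˣ)ⁿ`.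

* `smul_eq_zero_of_funChain` : `FunChain` + class descent ⟹ every `q`-new, `H`-fixed class
  `x ∈ J₀(N q)[n]` has `d • x = 0`  (any level `N`, `q ∣ N` allowed);
* `inertiaNewTors_of_forall_smul` : the packaging into `Xfer.InertiaNewTors N q p`;
* `inertiaNewTors_of_funChain` : both, with `S36lib.J.hasStableReps/hasFixedGenerators`.
-/
import Mathlib
import Fermat.Agent.S36lib.Fin.ClassLevel
import Fermat.Agent.S36lib.J.ClassDescentBar

set_option autoImplicit false
set_option linter.unusedSectionVars false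
set_option linter.unusedVariables false

noncomputable section

namespace Fermat.Agent.S45lib.Chain

open AlgebraicCurve ModularCurve AlgebraicCurve.SemilinearAut
open Fermat.Agent.S29lib Fermat.Agent.S29lib.GH Fermat.Agent.S29lib.D Fermat.Agent.S35lib
open Fermat.Agent.S37lib.HeckeInst
open Fermat.Agent.S36lib Fermat.Agent.S36lib.Desc2 Fermat.Agent.S36lib.J Fermat.Agent.S36lib.Fin

local notation "Qb" => AlgebraicClosure ℚ
local notation "GQ" => (AlgebraicClosure ℚ ≃ₐ[ℚ] AlgebraicClosure ℚ)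

section Main

variable {N q : ℕ} [NeZero N] [NeZero q] {H : Subgroup GQ}

/-- **the function level chain statement** at the level `N q` over the `H`-fixed fields, for two
maps `Nα Nβ : fixF (N q) H → fixF N H` (the norms along the two degeneracy maps). -/
def FunChain (Nα Nβ : fixF (N * q) H → fixF N H) (n d : ℕ) : Prop :=
  ∀ u : fixF (N * q) H, u ≠ 0 →
    (∃ E : Divisor Qb (FB (N * q)), ∀ v : Place Qb (FB (N * q)),
      (n : ℤ) * E v = v.ord (u : FB (N * q))) →
    IsConstPow (fixK H) n (Nα u) → IsConstPow (fixK H) n (Nβ u) →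
      IsConstPow (fixK H) n (u ^ d)

/-- **the class level from the function level chain.** -/
theorem smul_eq_zero_of_funChain {n d : ℕ} (hn0 : n ≠ 0)
    {Nα Nβ : fixF (N * q) H → fixF N H} (X : FunChain Nα Nβ n d)
    (hNα : ∀ u : fixF (N * q) H,
      ((Nα u : fixF N H) : FB N) = normAlong (heckeAlphaBar Qb N q) (u : FB (N * q)))
    (hNβ : ∀ u : fixF (N * q) H,
      ((Nβ u : fixF N H) : FB N) = normAlong (heckeBetaBar Qb N q) (u : FB (N * q)))
    (hRep : HasStableReps (N * q) H) (hGen₂ : HasFixedGenerators (N * q) H)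
    (hGen₁ : HasFixedGenerators N H)
    {x : JZero (N * q)} (hx : x ∈ Tors (N * q) n) (hnew : IsQNew N q x)
    (hfix : ∀ σ ∈ H, σ • x = x) : ((d : ℕ) : ℤ) • x = 0 := by
  have hnZ : (n : ℤ) ≠ 0 := by exact_mod_cast hn0
  obtain ⟨E, rfl, hE⟩ := hRep x hfix
  -- `n E` is principal
  have hprinc : (n • (E : Divisor Qb (FB (N * q)))).IsPrincipal := by
    have h0 : (n : ℤ) • Pic0.mk E = 0 := (Submodule.mem_torsionBy_iff _ _).1 hx
    have h1 : Pic0.mk (n • E) = 0 := by
      rw [← h0, natCast_zsmul]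
      rfl
    have h2 := (QuotientAddGroup.eq_zero_iff _).1 h1
    rw [AddSubgroup.mem_addSubgroupOf] at h2
    exact Divisor.mem_principal.1 (by simpa using h2)
  obtain ⟨u, hufix, hu0, hudiv⟩ := hGen₂ _ (hE.nsmul n) hprinc
  have hudiv' : ∀ v : Place Qb (FB (N * q)),
      (n : ℤ) * (E : Divisor Qb (FB (N * q))) v = v.ord u := by
    intro v
    rw [← hudiv v, Finsupp.smul_apply, nsmul_eq_mul]
  set uF : fixF (N * q) H := ⟨u, hufix⟩ with huF
  have huF0 : uF ≠ 0 := fun h0 => hu0 (congrArg Subtype.val h0)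
  -- the two norms
  have hα : IsConstPow (fixK H) n (Nα uF) := by
    refine isConstPow_of_pushforward (heckeAlphaBar Qb N q) (heckeAlphaBarIntegral N q)
      (finiteAlong_alpha N q) (normFormulaAlong_alpha N q)
      (fun σ _ => intertwines_alpha N q σ) hGen₁ hE ?_ hu0 hudiv' _ (hNα uF)
    have := hasPrincipalDivisors_FB (N * q)
    exact LSc.isPrincipal_pushforwardAlong_of_eq_zero _ _ _ _ E hnew.1
  have hβ : IsConstPow (fixK H) n (Nβ uF) := by
    refine isConstPow_of_pushforward (heckeBetaBar Qb N q) (heckeBetaBarIntegral N q)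
      (finiteAlong_beta N q) (normFormulaAlong_beta N q)
      (fun σ _ => intertwines_beta N q σ) hGen₁ hE ?_ hu0 hudiv' _ (hNβ uF)
    have := hasPrincipalDivisors_FB (N * q)
    exact LSc.isPrincipal_pushforwardAlong_of_eq_zero _ _ _ _ E hnew.2
  -- the chain
  obtain ⟨c, t, hc0, ht0, hct⟩ := X uF huF0 ⟨E, hudiv'⟩ hα hβ
  have htF0 : (t : FB (N * q)) ≠ 0 := fun h0 => ht0 (Subtype.ext h0)
  have hct' : u ^ d = algebraMap Qb (FB (N * q)) (algebraMap (fixK H) Qb c) *
      (t : FB (N * q)) ^ n := congrArg Subtype.val hct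
  -- `d E = div t`
  have hdiv : ∀ v : Place Qb (FB (N * q)),
      (d : ℤ) * (E : Divisor Qb (FB (N * q))) v = v.ord (t : FB (N * q)) := by
    intro v
    have h1 := congrArg v.ord hct'
    have hcF : algebraMap Qb (FB (N * q)) (algebraMap (fixK H) Qb c) ≠ 0 :=
      (map_ne_zero _).2 ((map_ne_zero _).2 hc0)
    rw [S18lib.Cech.ord_pow, v.ord_mul hcF (pow_ne_zero n htF0), S18lib.Cech.ord_const,
      S18lib.Cech.ord_pow, zero_add, ← hudiv' v] at h1
    have h2 : (n : ℤ) * ((d : ℤ) * (E : Divisor Qb (FB (N * q))) v) =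
        (n : ℤ) * v.ord (t : FB (N * q)) := by
      rw [← h1]; ring
    exact mul_left_cancel₀ hnZ h2
  -- conclusion in `Pic⁰`
  have h3 : Pic0.mk ((d : ℤ) • E) = 0 := by
    apply (QuotientAddGroup.eq_zero_iff _).2
    rw [AddSubgroup.mem_addSubgroupOf]
    refine ⟨(t : FB (N * q)), htF0, fun v => ?_⟩
    rw [← hdiv v]
    simp
  exact h3

end Main

/-- **(C45) from the class level statement** at every valuation ring over `q`. -/
theorem inertiaNewTors_of_forall_smul {N q p d : ℕ} [NeZero N] [NeZero q] (hd : d ≠ 0)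
    (h : ∀ A : ValuationSubring Qb, A.LiesOverPrime q → ∀ (k : ℕ) (x : JZero (N * q)),
      x ∈ Tors (N * q) (p ^ k) → IsQNew N q x → (∀ σ ∈ A.inertiaSubgroupIn ℚ, σ • x = x) →
        ((d : ℕ) : ℤ) • x = 0) : Xfer.InertiaNewTors N q p :=
  ⟨d, hd, h⟩

/-- **(C45) from the function level chain** at every valuation ring over `q` and every `p`-power. -/
theorem inertiaNewTors_of_funChain {N q p d : ℕ} [NeZero N] [NeZero q] [NeZero (N * q)]
    (hp : p.Prime) (hd : d ≠ 0)
    (h : ∀ A : ValuationSubring Qb, A.LiesOverPrime q → ∀ k : ℕ,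
      ∃ Nα Nβ : fixF (N * q) (A.inertiaSubgroupIn ℚ) → fixF N (A.inertiaSubgroupIn ℚ),
        FunChain Nα Nβ (p ^ k) d ∧
        (∀ u : fixF (N * q) (A.inertiaSubgroupIn ℚ),
          ((Nα u : fixF N (A.inertiaSubgroupIn ℚ)) : FB N) =
            normAlong (heckeAlphaBar Qb N q) (u : FB (N * q))) ∧
        (∀ u : fixF (N * q) (A.inertiaSubgroupIn ℚ),
          ((Nβ u : fixF N (A.inertiaSubgroupIn ℚ)) : FB N) =
            normAlong (heckeBetaBar Qb N q) (u : FB (N * q)))) :
    Xfer.InertiaNewTors N q p := by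
  refine inertiaNewTors_of_forall_smul hd (fun A hA k x hx hnew hfix => ?_)
  obtain ⟨Nα, Nβ, X, hNα, hNβ⟩ := h A hA k
  exact smul_eq_zero_of_funChain (pow_ne_zero k hp.ne_zero) X hNα hNβ
    (hasStableReps (N * q) _) (hasFixedGenerators (N * q) _) (hasFixedGenerators N _)
    hx hnew hfix

end Fermat.Agent.S45lib.Chain
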