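/-
S45lib / Chain / Goal  (helper7)  --  THE TARGET OF THE INSTANCE OF (C45) AND THE FINAL WRAPPERS

* `regAwayFix_smul`, `regAwayFix_root` : the low test ring `𝓛' = regAwayFix N H` (inertia-fixed
  functions regular away from the poles of `j`, any level) satisfies `low_smul`, `low_root`;
* `funChain_of_chainCtxK` : a `ChainCtxK` on `fixF (N q) H ⊇ fixF N H` whose Kummer system contains
  the Kummer functions gives the function level chain statement `FunChain` of `Chain/ClassLevel`;
* `inertiaNewTors_of_chainCtxK` : (C45) at the level `N q` from such contexts at every valuation ring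
  over `q` and every `p`-power (the exponent is `Q`, independent of `A` and of the `p`-power);
* `auxInertiaNewK_of_lev` : the interface `Hub.AuxInertiaNewK p` from the statement at the levels
  `Tower.lev M q j` (helper1's recursive spelling of `M q^j`, `lev (j+1) = lev j * q` by `rfl`).
-/
import Mathlib
import Fermat.Agent.S45lib.Chain.Main
import Fermat.Agent.S45lib.Chain.ClassLevel
import Fermat.Agent.S45lib.Hub.Iface
import Fermat.Agent.S45lib.Tower.Level
import Fermat.Agent.S36lib.Desc2.LiftM

set_option autoImplicit false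
set_option linter.unusedSectionVars false
set_option linter.unusedVariables false

noncomputable section

namespace Fermat.Agent.S45lib.Chain

open AlgebraicCurve ModularCurve
open Fermat.Agent.S18lib Fermat.Agent.LSb.Unit
open Fermat.Agent.S36lib Fermat.Agent.S36lib.Desc2 Fermat.Agent.S36lib.J
open Fermat.Agent.S37lib.HeckeInst
open Fermat.Agent.S45lib.MThick

local notation "Qb" => AlgebraicClosure ℚ
local notation "GQ" => (AlgebraicClosure ℚ ≃ₐ[ℚ] AlgebraicClosure ℚ)

/-! ### the low test ring -/

section LowRing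

variable (N : ℕ) [NeZero N] (H : Subgroup GQ)

theorem regAwayFix_smul (c : fixK H) (f : fixF N H) (hf : f ∈ regAwayFix N H) :
    algebraMap (fixK H) (fixF N H) c * f ∈ regAwayFix N H := by
  show ((algebraMap (fixK H) (fixF N H) c * f : fixF N H) : FB N) ∈ regAway Qb (Gin0.jF N)
  rw [Subfield.coe_mul, coe_algebraMap_fixF]
  exact Subring.mul_mem _ (algebraMap_mem_regAway _ _) hf

theorem regAwayFix_root {n : ℕ} (hn : n ≠ 0) (f : fixF N H) (hf : f ^ n ∈ regAwayFix N H) :
    f ∈ regAwayFix N H := by
  intro Q hQ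
  have h1 : ((f ^ n : fixF N H) : FB N) ∈ Q.toValuationSubring := hf Q hQ
  rw [SubmonoidClass.coe_pow] at h1
  rw [← ValuationSubring.valuation_le_one_iff] at h1 ⊢
  rw [map_pow] at h1
  exact (pow_le_one_iff_of_nonneg zero_le hn).1 h1

end LowRing

/-! ### from a chain context to the function level chain -/

section Fun

variable {N q : ℕ} [NeZero N] [NeZero q] {H : Subgroup GQ} {R : ValuationSubring (fixK H)}
variable {ι : Type*} [Fintype ι] [DecidableEq ι] {Fk : ι → Type*} [∀ i, Field (Fk i)]
variable [∀ i, Algebra (IsLocalRing.ResidueField R) (Fk i)]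
variable {ι' : Type*} [Fintype ι'] [DecidableEq ι'] {Gk : ι' → Type*} [∀ i, Field (Gk i)]
variable [∀ i, Algebra (IsLocalRing.ResidueField R) (Gk i)]
variable {D : MDatum R (fixF (N * q) H) ι Fk} {D' : MDatum R (fixF N H) ι' Gk}
variable {𝓛' : Set (fixF N H)} {g : ℕ} {gk' : ι' → ℕ} {n Q : ℕ} {KS : KummerSystemK D g n}
variable {Nα Nβ : fixF (N * q) H →* fixF N H} {aα aβ : ι → ι'}
variable {φα φβ : ∀ (i : ι) (i' : ι'), Fk i →* Gk i'} {tα tβ fα fβ : ι → ℕ}
variable {cα cβ : Fin D.s → Fin D'.s}

/-- **the function level chain from a chain context.** -/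
theorem funChain_of_chainCtxK
    (X : ChainCtxK D D' 𝓛' g gk' n Q KS Nα Nβ aα aβ φα φβ tα tβ fα fβ cα cβ)
    (hKum : ∀ u : fixF (N * q) H, u ≠ 0 →
      (∃ E : Divisor Qb (FB (N * q)), ∀ v : Place Qb (FB (N * q)),
        (n : ℤ) * E v = v.ord (u : FB (N * q))) → KS.IsKum u) :
    FunChain (⇑Nα) (⇑Nβ) n Q :=
  fun u hu hE hα hβ => X.chain (hKum u hu hE) hα hβ

end Fun

/-- (C45) does not depend on the spelling of the level -/
theorem inertiaNewTors_congr {N N' q p : ℕ} [NeZero N] [NeZero N'] [NeZero q] (h : N = N')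
    (H : Xfer.InertiaNewTors N q p) : Xfer.InertiaNewTors N' q p := by
  subst h
  exact H

/-- **the interface `Hub.AuxInertiaNewK` from the statement at the levels `lev M q j`.** -/
theorem auxInertiaNewK_of_lev (p : ℕ)
    (h : ∀ (M q j : ℕ) [NeZero M] [NeZero q], q.Prime → ¬ q ∣ M → q ≠ p →
      Fin.IsAuxLevel M q → 2 ≤ j → Xfer.InertiaNewTors (Tower.lev M q j) q p) :
    Hub.AuxInertiaNewK p := by
  intro M q j _ _ _ hq hqM hqp haux hj
  exact inertiaNewTors_congr (Tower.lev_eq M q j) (h M q j hq hqM hqp haux hj)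

end Fermat.Agent.S45lib.Chain
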