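/-
S45lib / Chain / ChartN  (helper7)  --  THE CHARTS OF THE NORMS, all levels of the tower

With the low test ring `𝓛' = Desc2.regAwayFix (lev M q (n+1)) H` (inertia-fixed functions regular away
from the poles of `j`):

* `mem_regAwayFix_of_mem_𝓛` : the chart functions `𝓛 m 0 = L(m (j)_∞)` of helper9's modular datum `modL`
  (any level `L`) are regular away from the poles of `j`;
* `normMonoidHom_alphaFixT_mem`, `normMonoidHom_betaFixT_mem` : the norms along helper2's
  `alphaFixT`, `betaFixT` (`Tower/NormFix.lean`) of functions regular away from the poles of `j` are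
  regular away from the poles of `j`;
* `hchart_alpha`, `hchart_beta` : the hypothesis `hchart` of `StepDataK.normCtx` /
  `chainCtxK_of_bricks` for the modular data.
-/
import Mathlib
import Fermat.Agent.S45lib.Chain.Goal
import Fermat.Agent.S45lib.Inst.Datum
import Fermat.Agent.S45lib.Tower.NormFix
import Fermat.Agent.S36lib.Norm.ChartNorm
import Fermat.Agent.S36lib.Norm.ChainInst

set_option autoImplicit false
set_option linter.unusedSectionVars false
set_option linter.unusedVariables false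

noncomputable section

namespace Fermat.Agent.S45lib.Chain

open AlgebraicCurve ModularCurve IsLocalRing
open Fermat.Agent.S18lib Fermat.Agent.LSb.Unit
open Fermat.Agent.S36lib Fermat.Agent.S36lib.Desc Fermat.Agent.S36lib.Desc2 Fermat.Agent.S36lib.Norm
open Fermat.Agent.S36lib.Thick (RamGaussDatum)
open Fermat.Agent.S36lib.Inst (HI qK instAlgebraResW)
open Fermat.Agent.S37lib.HeckeInst
open Fermat.Agent.S45lib.MThick Fermat.Agent.S45lib.Inst Fermat.Agent.S45lib.Tower

local notation "Qb" => AlgebraicClosure ℚ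
local notation "GQ" => (AlgebraicClosure ℚ ≃ₐ[ℚ] AlgebraicClosure ℚ)

/-! ### the chart functions of the modular datum -/

section Chart

variable (L M q : ℕ) [NeZero L] [NeZero M] (A : ValuationSubring Qb)
variable {ι : Type*}
variable [HasPrincipalDivisors (IsLocalRing.ResidueField (Wfix A)) (FRes A M)]
variable (V : ι → RamGaussDatum (Wfix A) (fixF L (HI A)) (FRes A M)) (i₀ : ι) (e : ι → ℕ)
    (w : ι → ι → ℕ) (s : ℕ)
    (x : ι → Fin s → AlgebraicCurve.Place (ResidueField (Wfix A)) (FRes A M)) (c₀ : Wfix A)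

/-- `L(m (j)_∞) ⊆ regAwayFix` -/
theorem mem_regAwayFix_of_mem_𝓛 (m : ℕ) (h : fixF L (HI A))
    (hh : h ∈ (modL L M q A V i₀ e w s x c₀).𝓛 m 0) : h ∈ regAwayFix L (HI A) := by
  haveI := hasPrincipalDivisors_FB L
  have h1 : ((h : fixF L (HI A)) : FB L) ∈
      riemannRochSpace (LSb.Core.lin2 (chartP₁L L A) (chartP₂L L A c₀) (m : ℕ) (0 : ℕ)) :=
    Fin.mem_chartL.1 hh
  show ((h : fixF L (HI A)) : FB L) ∈ regAway Qb (Gin0.jF L)
  rw [← coe_jTopL L A]
  apply mem_regAway_of_mem_rr m
  have e : LSb.Core.lin2 (chartP₁L L A) (chartP₂L L A c₀) ((m : ℕ) : ℤ) ((0 : ℕ) : ℤ) =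
      (m : ℤ) • polesOf (K := Qb) ((jTopL L A : fixF L (HI A)) : FB L) := by
    rw [LSb.Core.lin2, Nat.cast_zero, zero_smul, add_zero]
    rfl
  rw [← e]
  exact h1

end Chart

/-! ### the norms along `α`, `β` -/

section Norms

variable (M q : ℕ) [NeZero M] [NeZero q] (H : Subgroup GQ)
variable (hq : q.Prime) (hqM : ¬ q ∣ M)

include hq hqM in
theorem normMonoidHom_alphaFixT_mem (n : ℕ) (f : fixF (lev M q (n + 2)) H)
    (hf : f ∈ regAwayFix (lev M q (n + 2)) H) :
    normMonoidHom (alphaFixT M q H (n + 1)) f ∈ regAwayFix (lev M q (n + 1)) H := by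
  show ((normHom (alphaFixT M q H (n + 1)) f : fixF (lev M q (n + 1)) H) :
    FB (lev M q (n + 1))) ∈ regAway Qb (Gin0.jF (lev M q (n + 1)))
  haveI : Fact q.Prime := ⟨hq⟩
  rw [coe_normHom_alphaFixT M q H hq hqM n f]
  exact normAlong_alpha_mem_regAway (lev M q (n + 1)) q hf

include hq hqM in
theorem normMonoidHom_betaFixT_mem (n : ℕ) (f : fixF (lev M q (n + 2)) H)
    (hf : f ∈ regAwayFix (lev M q (n + 2)) H) :
    normMonoidHom (betaFixT M q H (n + 1)) f ∈ regAwayFix (lev M q (n + 1)) H := by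
  show ((normHom (betaFixT M q H (n + 1)) f : fixF (lev M q (n + 1)) H) :
    FB (lev M q (n + 1))) ∈ regAway Qb (Gin0.jF (lev M q (n + 1)))
  haveI : Fact q.Prime := ⟨hq⟩
  rw [coe_normHom_betaFixT M q H hq hqM n f]
  exact normAlong_beta_mem_regAway (lev M q (n + 1)) q hf

end Norms

section HChart

variable (M q : ℕ) [NeZero M] [NeZero q] (A : ValuationSubring Qb)
variable (hq : q.Prime) (hqM : ¬ q ∣ M)
variable {ι : Type*}
variable [HasPrincipalDivisors (IsLocalRing.ResidueField (Wfix A)) (FRes A M)]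
variable (n : ℕ)
variable (V : ι → RamGaussDatum (Wfix A) (fixF (lev M q (n + 2)) (HI A)) (FRes A M)) (i₀ : ι)
    (e : ι → ℕ) (w : ι → ι → ℕ) (s : ℕ)
    (x : ι → Fin s → AlgebraicCurve.Place (ResidueField (Wfix A)) (FRes A M)) (c₀ : Wfix A)

include hq hqM in
/-- **`hchart` along `α`** for the modular datum of level `lev M q (n+2)` -/
theorem hchart_alpha (m : ℕ) (h : fixF (lev M q (n + 2)) (HI A))
    (hh : h ∈ (modL (lev M q (n + 2)) M q A V i₀ e w s x c₀).𝓛 m 0) :
    normMonoidHom (alphaFixT M q (HI A) (n + 1)) h ∈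
      (regAwayFix (lev M q (n + 1)) (HI A) : Set (fixF (lev M q (n + 1)) (HI A))) :=
  normMonoidHom_alphaFixT_mem M q (HI A) hq hqM n h
    (mem_regAwayFix_of_mem_𝓛 (lev M q (n + 2)) M q A V i₀ e w s x c₀ m h hh)

include hq hqM in
/-- **`hchart` along `β`** for the modular datum of level `lev M q (n+2)` -/
theorem hchart_beta (m : ℕ) (h : fixF (lev M q (n + 2)) (HI A))
    (hh : h ∈ (modL (lev M q (n + 2)) M q A V i₀ e w s x c₀).𝓛 m 0) :
    normMonoidHom (betaFixT M q (HI A) (n + 1)) h ∈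
      (regAwayFix (lev M q (n + 1)) (HI A) : Set (fixF (lev M q (n + 1)) (HI A))) :=
  normMonoidHom_betaFixT_mem M q (HI A) hq hqM n h
    (mem_regAwayFix_of_mem_𝓛 (lev M q (n + 2)) M q A V i₀ e w s x c₀ m h hh)

end HChart

end Fermat.Agent.S45lib.Chain
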