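/-
S45lib / Chain / Inst  (helper7)  --  (C45) AT THE LEVELS `lev M q j` FROM THE MODULAR BRICKS

`ModBricksK M q A j g g' gM` : what the concrete instance (Tower + SS + Inst) has to deliver for the
top level `lev M q (j+1)` and the low level `lev M q j`, a valuation ring `A | q` of `ℚ̄`:
places `V`, `V'`, multipoints `x`, `x'`, chart constants, with

* `MCtx` for helper9's modular data `modL` at both levels (multiplicities `eK`, weights `wK`, base
  component `0`),
* `StepDataK` along helper2's `alphaFixT`, `betaFixT` on helper2's tables,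
* (GLUE) at the low level on `regAwayFix`.

Then (`funChain_of_modBricksK`, `inertiaNewTors_lev_of_modBricksK`, `auxInertiaNewK_of_modBricksK`)
the function level chain with exponent `q²`, (C45) at the level `lev M q j` and the interface
`Hub.AuxInertiaNewK p` follow: the three exports of (G) are theorems for every `MCtx` (helper6,
helper3), the Kummer system is helper9's `modL_kummerSystem`, the charts of the norms are
`Chain/ChartN`, the combinatorics `Chain/Table` (helper2).
-/
import Mathlib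
import Fermat.Agent.S45lib.Chain.Bricks
import Fermat.Agent.S45lib.Chain.ChartN
import Fermat.Agent.S45lib.Chain.Goal
import Fermat.Agent.S45lib.Inst.KumSys
import Fermat.Agent.S45lib.MThick.Main
import Fermat.Agent.S36lib.J.Goal

set_option autoImplicit false
set_option linter.unusedSectionVars false
set_option linter.unusedVariables false

noncomputable section

namespace Fermat.Agent.S45lib.Chain

open AlgebraicCurve ModularCurve IsLocalRing
open Fermat.Agent.S18lib Fermat.Agent.LSb.Unit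
open Fermat.Agent.LSb (HasValueAt)
open Fermat.Agent.S36lib Fermat.Agent.S36lib.Desc Fermat.Agent.S36lib.Desc2 Fermat.Agent.S36lib.Norm
open Fermat.Agent.S36lib.Thick (RamGaussDatum)
open Fermat.Agent.S36lib.Inst (HI qK instAlgebraResW)
open Fermat.Agent.S37lib.HeckeInst
open Fermat.Agent.S45lib.MThick Fermat.Agent.S45lib.Inst Fermat.Agent.S45lib.Tower
open Fermat.Agent.S45lib.CountK (eK wK)

local notation "Qb" => AlgebraicClosure ℚ
local notation "GQ" => (AlgebraicClosure ℚ ≃ₐ[ℚ] AlgebraicClosure ℚ)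

section Bricks

variable (M q : ℕ) [NeZero M] [NeZero q] (A : ValuationSubring Qb)
variable [HasPrincipalDivisors (ResidueField (Wfix A)) (FRes A M)]

/-- **what the modular instance has to deliver** at `(M, q, A)` for the top level `lev M q (j+1)` and
the low level `lev M q j`. -/
def ModBricksK (j g g' gM : ℕ) : Prop :=
  ∃ (s s' : ℕ)
    (V : Fin (j + 2) → RamGaussDatum (Wfix A) (fixF (lev M q (j + 1)) (HI A)) (FRes A M))
    (V' : Fin (j + 1) → RamGaussDatum (Wfix A) (fixF (lev M q j) (HI A)) (FRes A M))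
    (x : Fin (j + 2) → Fin s → AlgebraicCurve.Place (ResidueField (Wfix A)) (FRes A M))
    (x' : Fin (j + 1) → Fin s' → AlgebraicCurve.Place (ResidueField (Wfix A)) (FRes A M))
    (c₀ c₀' : Wfix A)
    (ια ιβ : Fin (j + 2) → Fin (j + 1) → FRes A M →+* FRes A M) (εα εβ : Fin (j + 2) → ℕ)
    (cα cβ : Fin s → Fin s'),
    MCtx (modL (lev M q (j + 1)) M q A V 0 (fun i => eK q (j + 1) i) (fun i i' => wK q (j + 1) i i') s x c₀) g (fun _ => gM) ∧
    MCtx (modL (lev M q j) M q A V' 0 (fun i => eK q j i) (fun i i' => wK q j i i') s' x' c₀') g' (fun _ => gM) ∧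
    StepDataK (modL (lev M q (j + 1)) M q A V 0 (fun i => eK q (j + 1) i) (fun i i' => wK q (j + 1) i i') s x c₀)
      (modL (lev M q j) M q A V' 0 (fun i => eK q j i) (fun i i' => wK q j i i') s' x' c₀')
      (alphaFixT M q (HI A) j) (aAlpha j) ια εα (fAlpha q j) cα ∧
    StepDataK (modL (lev M q (j + 1)) M q A V 0 (fun i => eK q (j + 1) i) (fun i i' => wK q (j + 1) i i') s x c₀)
      (modL (lev M q j) M q A V' 0 (fun i => eK q j i) (fun i i' => wK q j i i') s' x' c₀')
      (betaFixT M q (HI A) j) (aBeta j) ιβ εβ (fBeta q j) cβ ∧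
    (∀ i, εα i * fAlpha q j i = tAlpha q j i) ∧ (∀ i, εβ i * fBeta q j i = tBeta q j i) ∧
    (∀ f : fixF (lev M q j) (HI A), f ∈ regAwayFix (lev M q j) (HI A) →
      f ∈ (modL (lev M q j) M q A V' 0 (fun i => eK q j i) (fun i i' => wK q j i i') s' x' c₀').O → ∀ c', ∃ γ : ResidueField (Wfix A),
        ∀ i', HasValueAt (x' i' c') ((modL (lev M q j) M q A V' 0 (fun i => eK q j i) (fun i i' => wK q j i i') s' x' c₀').redF i' f) γ)

variable {M q A}

/-- **the function level chain from the modular bricks.** -/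
theorem funChain_of_modBricksK (hq : q.Prime) (hqM : ¬ q ∣ M) (hA : A.LiesOverPrime q)
    {j g g' gM n : ℕ} (hj : 2 ≤ j)
    (hn : n ≠ 0) (hqn : Nat.Coprime q n) (hF : IsCurveOfGenus Qb (FB (lev M q (j + 1))) g)
    (h : ModBricksK M q A j g g' gM) :
    FunChain (N := lev M q j) (q := q) (H := HI A)
      (⇑(normMonoidHom (alphaFixT M q (HI A) j))) (⇑(normMonoidHom (betaFixT M q (HI A) j)))
      n (q ^ 2) := by
  have : Fact q.Prime := ⟨hq⟩
  obtain ⟨s, s', V, V', x, x', c₀, c₀', ια, ιβ, εα, εβ, cα, cβ, C, C', Sα, Sβ, hεα, hεβ, hglue⟩ := h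
  obtain ⟨m, rfl⟩ : ∃ m, j = m + 1 := ⟨j - 1, by omega⟩
  have HC : HasChartsM (modL (lev M q (m + 1 + 1)) M q A V 0 (fun i => eK q (m + 1 + 1) i) (fun i i' => wK q (m + 1 + 1) i i') s x c₀) (chartP₁L (lev M q (m + 1 + 1)) A) (chartP₂L (lev M q (m + 1 + 1)) A c₀) :=
    modL_hasCharts _ M q A V 0 _ _ s x c₀
  have CH := chartHypL (lev M q (m + 1 + 1)) A hF c₀
  have h1 := C.existsTwistStatement
  have h2 := C.nondegStatement
  have h3 := C.coreStatement
  have h4 := J.natCast_resW_ne_zero hA hqn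
  have h5 := HC.const00 CH
  have h6 := finrankHom_alphaFixT M q (HI A) hq hqM m
  have h7 := finrankHom_betaFixT M q (HI A) hq hqM m
  have h8 := regAwayFix_smul (lev M q (m + 1)) (HI A)
  have h9 : ∀ f : fixF (lev M q (m + 1)) (HI A), f ^ n ∈ regAwayFix (lev M q (m + 1)) (HI A) → f ∈ regAwayFix (lev M q (m + 1)) (HI A) := fun f hf => regAwayFix_root (lev M q (m + 1)) (HI A) hn f hf
  have h10 := hchart_alpha M q A hq hqM m V 0 (fun i => eK q (m + 1 + 1) i) (fun i i' => wK q (m + 1 + 1) i i') s x c₀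
  have h11 := hchart_beta M q A hq hqM m V 0 (fun i => eK q (m + 1 + 1) i) (fun i i' => wK q (m + 1 + 1) i i') s x c₀
  have X := chainCtxK_of_bricks (q := q) (j := m + 1) (n := n) hq hj hqn C C' h1 h2 h3
      (modL_kummerSystem (lev M q (m + 1 + 1)) M q A V 0 (fun i => eK q (m + 1 + 1) i) (fun i i' => wK q (m + 1 + 1) i i') s x c₀ hF hn)
      rfl h4 h5 (fun _ => rfl) (fun _ => rfl) rfl
      Sα Sβ hεα hεβ h6 h7 (regAwayFix (lev M q (m + 1)) (HI A) : Set (fixF (lev M q (m + 1)) (HI A)))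
      h8 h9 hglue h10 h11
  exact funChain_of_chainCtxK (N := lev M q (m + 1)) (q := q) X (fun u hu hE => ⟨hu, hE⟩)

end Bricks

/-- **(C45) at the level `lev M q j` from the modular bricks.** -/
theorem inertiaNewTors_lev_of_modBricksK {M q j p : ℕ} [NeZero M] [NeZero q] (hq : q.Prime)
    (hqM : ¬ q ∣ M) (hqp : q ≠ p) (hp : p.Prime) (hj : 2 ≤ j)
    (h : ∀ (A : ValuationSubring Qb) (hA : A.LiesOverPrime q)
      [HasPrincipalDivisors (ResidueField A) (FRes A M)]
      [HasPrincipalDivisors (ResidueField (Wfix A)) (FRes A M)] (g g' gM : ℕ),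
      IsCurveOfGenus Qb (FBar (lev M q (j + 1))) g → IsCurveOfGenus Qb (FBar (lev M q j)) g' →
      IsCurveOfGenus (ResidueField A) (FRes A M) gM → ModBricksK M q A j g g' gM) :
    Xfer.InertiaNewTors (lev M q j) q p := by
  haveI : Fact q.Prime := ⟨hq⟩
  refine inertiaNewTors_of_funChain (N := lev M q j) (q := q) (d := q ^ 2) hp
    (pow_ne_zero 2 hq.ne_zero) (fun A hA k => ?_)
  obtain ⟨g, hF, -⟩ := Gin0.exists_isCurveOfGenus_FBar (lev M q (j + 1))
  obtain ⟨g', hF', -⟩ := Gin0.exists_isCurveOfGenus_FBar (lev M q j)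
  obtain ⟨gM, hFk⟩ := S37lib.B3.exists_isCurveOfGenus_FRes (A := A) M hqM hA
  haveI : HasPrincipalDivisors (ResidueField A) (FRes A M) := hFk.hasPrincipalDivisors
  haveI : HasPrincipalDivisors (ResidueField (Wfix A)) (FRes A M) :=
    Fermat.Agent.S36lib.Inst.hasPrincipalDivisors_resW hq hA hFk.hasPrincipalDivisors
  have hqn : Nat.Coprime q (p ^ k) :=
    Nat.Coprime.pow_right k ((Nat.coprime_primes hq hp).2 hqp)
  obtain ⟨m, rfl⟩ : ∃ m, j = m + 1 := ⟨j - 1, by omega⟩
  refine ⟨⇑(normMonoidHom (alphaFixT M q (HI A) (m + 1))),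
    ⇑(normMonoidHom (betaFixT M q (HI A) (m + 1))),
    funChain_of_modBricksK hq hqM hA hj (pow_ne_zero k hp.ne_zero) hqn hF
      (h A hA g g' gM hF hF' hFk), ?_, ?_⟩
  · intro u
    exact coe_normHom_alphaFixT M q (HI A) hq hqM m u
  · intro u
    exact coe_normHom_betaFixT M q (HI A) hq hqM m u

/-- **THE INTERFACE OF S45 FROM THE MODULAR BRICKS.** -/
theorem auxInertiaNewK_of_modBricksK {p : ℕ} (hp : p.Prime)
    (h : ∀ (M q j : ℕ) [NeZero M] [NeZero q], q.Prime → ∀ (hqM : ¬ q ∣ M), q ≠ p →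
      Fin.IsAuxLevel M q → 2 ≤ j →
      ∀ (A : ValuationSubring Qb) (hA : A.LiesOverPrime q)
        [HasPrincipalDivisors (ResidueField A) (FRes A M)]
        [HasPrincipalDivisors (ResidueField (Wfix A)) (FRes A M)] (g g' gM : ℕ),
        IsCurveOfGenus Qb (FBar (lev M q (j + 1))) g → IsCurveOfGenus Qb (FBar (lev M q j)) g' →
        IsCurveOfGenus (ResidueField A) (FRes A M) gM → ModBricksK M q A j g g' gM) :
    Hub.AuxInertiaNewK p :=
  auxInertiaNewK_of_lev p fun M q j _ _ hq hqM hqp haux hj =>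
    inertiaNewTors_lev_of_modBricksK hq hqM hqp hp hj (h M q j hq hqM hqp haux hj)

end Fermat.Agent.S45lib.Chain
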