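/-
S45lib / Chain / Final  (helper7)  --  FROM THE TOWER RECORD TO THE INTERFACE OF S45

`modBricksK_of_towerCore` : helper6's tower record `T : MThick.TowerCore M q A hqM hA` (the normalised
places of all the levels `M q^k`, their rows along `α`, `β`, their ramification indices, their
distinctness) gives the modular bricks `Chain.ModBricksK M q A j g g' gM` at every auxiliary level,
`j ≥ 1`:

* the two `MCtx` : helper9's `Inst.mctx_modLX` on `T.towerReq`, `T.rowsK` (helper6), with helper8's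
  multipoints `SS.xK`, helper5's `ModK.modLK`;
* the two `StepDataK` : helper8's `KMval.stepDataK_alpha/beta_of_rows` on `T.step_alpha/beta`;
* `low_glue` : helper9's `Inst.low_glue_modLX`.

`auxInertiaNewK_of_towerCore` : a tower record at every auxiliary level ⟹ `Hub.AuxInertiaNewK p`.
-/
import Mathlib
import Fermat.Agent.S45lib.Chain.Inst
import Fermat.Agent.S45lib.MThick.TowerOut
import Fermat.Agent.S45lib.Inst.GlueMod
import Fermat.Agent.S45lib.Inst.TowerPos
import Fermat.Agent.S45lib.KMval.StepMod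
import Fermat.Agent.S45lib.Model.Adapter

set_option autoImplicit false
set_option linter.unusedSectionVars false
set_option linter.unusedVariables false

noncomputable section

namespace Fermat.Agent.S45lib.Chain

open AlgebraicCurve ModularCurve IsLocalRing
open Fermat.Agent.S18lib Fermat.Agent.LSb.Unit Fermat.Agent.ProgramR
open Fermat.Agent.LSb (HasValueAt)
open Fermat.Agent.S36lib Fermat.Agent.S36lib.Desc Fermat.Agent.S36lib.Desc2 Fermat.Agent.S36lib.Norm
open Fermat.Agent.S36lib.Thick (RamGaussDatum)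
open Fermat.Agent.S36lib.Inst (HI qK instAlgebraResW)
open Fermat.Agent.S37lib.HeckeInst
open Fermat.Agent.S45lib.MThick Fermat.Agent.S45lib.Inst Fermat.Agent.S45lib.Tower
open Fermat.Agent.S45lib.ModK Fermat.Agent.S45lib.KMval
open Fermat.Agent.S45lib.CountK (eK wK)
open WeierstrassCurve WeierstrassCurve.Affine WeierstrassCurve.Affine.Point
open FreyPackage

local notation "Qb" => AlgebraicClosure ℚ
local notation "GQ" => (AlgebraicClosure ℚ ≃ₐ[ℚ] AlgebraicClosure ℚ)

section

variable {M q : ℕ} [NeZero M] [NeZero q] [hq : Fact q.Prime] {A : ValuationSubring Qb}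
variable [HasPrincipalDivisors (ResidueField A) (FRes A M)]
variable [HasPrincipalDivisors (ResidueField (Wfix A)) (FRes A M)]
variable [HasPrincipalDivisors Qb (FBar M)]
variable {hqM : ¬ q ∣ M} {hA : A.LiesOverPrime q}

local notation "kW" => ResidueField (Wfix A)

/-- the `RowsReq` of a tower record at the level `lev M q (k+1)` -/
theorem rowsReq_of_towerCore (T : TowerCore M q A hqM hA) (k : ℕ) :
    RowsReq hqM hA (lev M q (k + 1)) (k + 1) (T.V (k + 1)) (posT M q (HI A) (k + 1))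
      (stepT M q (HI A) k) :=
  rowsReq_posT (T.rowsK k)

/-- **the modular context at the level `lev M q (k+1)` from the tower record** -/
theorem mctx_of_towerCore (T : TowerCore M q A hqM hA) (haux : Fin.IsAuxLevel M q) (k : ℕ)
    {g gM : ℕ} (hF : IsCurveOfGenus Qb (FBar (lev M q (k + 1))) g)
    (hFk : IsCurveOfGenus (ResidueField A) (FRes A M) gM) :
    MCtx (modLX (lev M q (k + 1)) M q (k + 1) A hqM hA (T.V (k + 1))) g (fun _ => gM) :=
  mctx_modLX (T.towerReq (k + 1) (Nat.succ_le_succ (Nat.zero_le k))) (TowerCore.ιs_jK (hA := hA) (k + 1))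
    (lev_eq M q (k + 1)) haux (Nat.succ_le_succ (Nat.zero_le k)) hF hFk
    (rowsReq_of_towerCore T k)

/-- **(GLUE) on `regAwayFix` at the level `lev M q (k+1)` from the tower record** -/
theorem low_glue_of_towerCore (T : TowerCore M q A hqM hA) (k : ℕ)
    (f : fixF (lev M q (k + 1)) (HI A)) (hf : f ∈ regAwayFix (lev M q (k + 1)) (HI A))
    (hO : f ∈ (modLX (lev M q (k + 1)) M q (k + 1) A hqM hA (T.V (k + 1))).O)
    (c : Fin (modLX (lev M q (k + 1)) M q (k + 1) A hqM hA (T.V (k + 1))).s) :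
    ∃ γ : kW, ∀ i, HasValueAt ((modLX (lev M q (k + 1)) M q (k + 1) A hqM hA (T.V (k + 1))).x i c)
      ((modLX (lev M q (k + 1)) M q (k + 1) A hqM hA (T.V (k + 1))).redF i f) γ :=
  low_glue_modLX (T.towerReq (k + 1) (Nat.succ_le_succ (Nat.zero_le k))) (TowerCore.ιs_jK (hA := hA) (k + 1))
    (lev_eq M q (k + 1)) (Nat.succ_pos k) (rowsReq_of_towerCore T k) f hf hO c

/-- **THE MODULAR BRICKS FROM THE TOWER RECORD** (top level `lev M q (j+1)`, low level `lev M q j`,
`j ≥ 1`). -/
theorem modBricksK_of_towerCore (T : TowerCore M q A hqM hA) (haux : Fin.IsAuxLevel M q)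
    {j g g' gM : ℕ} (hj : 1 ≤ j)
    (hF : IsCurveOfGenus Qb (FBar (lev M q (j + 1))) g)
    (hF' : IsCurveOfGenus Qb (FBar (lev M q j)) g')
    (hFk : IsCurveOfGenus (ResidueField A) (FRes A M) gM) : ModBricksK M q A j g g' gM := by
  obtain ⟨m, rfl⟩ : ∃ m, j = m + 1 := ⟨j - 1, by omega⟩
  have C : MCtx (modLX (lev M q (m + 1 + 1)) M q (m + 1 + 1) A hqM hA (T.V (m + 1 + 1))) g
      (fun _ => gM) := mctx_of_towerCore T haux (m + 1) hF hFk
  have C' : MCtx (modLX (lev M q (m + 1)) M q (m + 1) A hqM hA (T.V (m + 1))) g'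
      (fun _ => gM) := mctx_of_towerCore T haux m hF' hFk
  have B : J.BaseDVR (Wfix A) (qK A q) := TowerCore.baseDVR hA
  have Sα : StepDataK (modLX (lev M q (m + 1 + 1)) M q (m + 1 + 1) A hqM hA (T.V (m + 1 + 1)))
      (modLX (lev M q (m + 1)) M q (m + 1) A hqM hA (T.V (m + 1)))
      (alphaFixT M q (HI A) (m + 1)) (aAlpha (m + 1))
      (fun b _ => ιresK hA (m + 1 + 2 ≤ 2 * (b : ℕ))) (epsAlpha q (m + 1)) (fAlpha q (m + 1)) id :=
    stepDataK_alpha_of_rows hqM hA hj
      (modLX (lev M q (m + 1 + 1)) M q (m + 1 + 1) A hqM hA (T.V (m + 1 + 1)))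
      (modLX (lev M q (m + 1)) M q (m + 1) A hqM hA (T.V (m + 1))) B rfl (alphaFixT M q (HI A) (m + 1))
      (alphaFixT_algebraMap M q (HI A) (m + 1)) (finiteHom_alphaFixT M q (HI A) hq.out hqM m)
      (finrankHom_alphaFixT M q (HI A) hq.out hqM m) id (fun _ => rfl) (fun _ => rfl)
      (T.step_alpha (m + 1)) (T.unif_pow (m + 1 + 1)) (T.unif_pow (m + 1)) (T.ne (m + 1 + 1))
      (fun b c z v h => pt_alpha hqM hA (m + 1) b c z v h)
  have Sβ : StepDataK (modLX (lev M q (m + 1 + 1)) M q (m + 1 + 1) A hqM hA (T.V (m + 1 + 1)))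
      (modLX (lev M q (m + 1)) M q (m + 1) A hqM hA (T.V (m + 1)))
      (betaFixT M q (HI A) (m + 1)) (aBeta (m + 1))
      (fun b _ => ιresK hA (2 * (b : ℕ) ≤ m + 1)) (epsBeta q (m + 1)) (fBeta q (m + 1))
      (SS.ssPerm M q A hqM hA) :=
    stepDataK_beta_of_rows hqM hA hj
      (modLX (lev M q (m + 1 + 1)) M q (m + 1 + 1) A hqM hA (T.V (m + 1 + 1)))
      (modLX (lev M q (m + 1)) M q (m + 1) A hqM hA (T.V (m + 1))) B rfl (betaFixT M q (HI A) (m + 1))
      (betaFixT_algebraMap M q (HI A) (m + 1)) (finiteHom_betaFixT M q (HI A) hq.out hqM m)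
      (finrankHom_betaFixT M q (HI A) hq.out hqM m) (SS.ssPerm M q A hqM hA) (fun _ => rfl)
      (fun _ => rfl) (T.step_beta (m + 1)) (T.unif_pow (m + 1 + 1)) (T.unif_pow (m + 1))
      (T.ne (m + 1 + 1))
      (fun b c z v h => pt_beta hqM hA (m + 1) b (Nat.lt_succ_iff.1 b.2) c z v h)
  exact ⟨Fermat.Agent.S36lib.Inst.nS M q A hqM hA, Fermat.Agent.S36lib.Inst.nS M q A hqM hA, T.V (m + 1 + 1), T.V (m + 1),
    fun i c => SS.xK M q A hqM hA (m + 1 + 1) (i : ℕ) c,
    fun i c => SS.xK M q A hqM hA (m + 1) (i : ℕ) c,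
    c0WK M q (m + 1 + 1) A hqM hA, c0WK M q (m + 1) A hqM hA,
    fun b _ => ιresK hA (m + 1 + 2 ≤ 2 * (b : ℕ)), fun b _ => ιresK hA (2 * (b : ℕ) ≤ m + 1),
    epsAlpha q (m + 1), epsBeta q (m + 1), id, SS.ssPerm M q A hqM hA, C, C', Sα, Sβ,
    epsAlpha_mul_fAlpha hj, epsBeta_mul_fBeta hj, low_glue_of_towerCore T m⟩

end

/-- **THE INTERFACE OF S45 FROM THE TOWER RECORDS**: a tower record `MThick.TowerCore M q A hqM hA` at
every auxiliary level `M`, every prime `q ∤ M` and every valuation ring `A | q` of `ℚ̄` gives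
`Hub.AuxInertiaNewK p` for every prime `p`. -/
theorem auxInertiaNewK_of_towerCore {p : ℕ} (hp : p.Prime)
    (T : ∀ (M q : ℕ) [NeZero M] [NeZero q] [Fact q.Prime] (hqM : ¬ q ∣ M), Fin.IsAuxLevel M q →
      ∀ (A : ValuationSubring Qb) (hA : A.LiesOverPrime q), TowerCore M q A hqM hA) :
    Hub.AuxInertiaNewK p :=
  auxInertiaNewK_of_modBricksK hp fun M q j _ _ hq hqM hqp haux hj A hA _ _ g g' gM hF hF' hFk => by
    have : Fact q.Prime := ⟨hq⟩
    have : HasPrincipalDivisors Qb (FBar M) := hasPrincipalDivisors_FB M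
    exact modBricksK_of_towerCore (T M q hqM haux A hA) haux (by omega) hF hF' hFk

/-- **S45 FROM THE TOWER RECORDS.**  `Fermat/Agent/S45.lean` is this theorem applied to the tower
record of the modular curves (`Tower/**`). -/
theorem s45_of_towerCore
    (T : ∀ (M q : ℕ) [NeZero M] [NeZero q] [Fact q.Prime] (hqM : ¬ q ∣ M), Fin.IsAuxLevel M q →
      ∀ (A : ValuationSubring Qb) (hA : A.LiesOverPrime q), TowerCore M q A hqM hA)
    (P : FreyPackage) (hmod : P.freyCurve.IsModular)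
    (hirr : GaloisRepIsIrreducible (K := AlgebraicClosure ℚ) ℚ P.freyCurve P.p) :
    ∃ f : CuspForm (CongruenceSubgroup.Gamma0 2) 2, f ≠ 0 :=
  Fermat.Agent.S45lib.Model.s45_of_auxInertiaNewK
    (fun p hp => auxInertiaNewK_of_towerCore hp T) P hmod hirr

end Fermat.Agent.S45lib.Chain
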